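import Fermat.Agent.S15.D.Global

/-!
# S15 / D : the base cases `S = ZMod e` with action `1` or `χ`
TASKS S15/D-BaseTriv, S15/D-CycStruct, S15/D-BaseCyc, S15/D-Base.

`#Sel(S) ≤ #S0 * #STT`, proved by an INJECTIVE evaluation map `Sel → STT × S0`, `c ↦ (c σ₀, c τ₀)`, `σ₀ ∈ I_AN`, `τ₀ ∈ I_Ae`.
-/

set_option autoImplicit false

namespace Fermat.Agent.S15.D

open Fermat.Agent.S55 Fermat.Agent.S55.Places Fermat.Agent.S36.Base

variable {e N : ℕ} [Fact e.Prime] {Ae AN : ValuationSubring Qbar}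

/-- (D-BaseTriv) trivial action, `e` odd: `c ↦ c σ₀ ∈ STT` is injective on `Sel`, where `σ₀ ∈ I_AN`, `kum e ν σ₀ ≠ 0`.
[`c σ₀ = 0`.  `exists_kum_of_hom` + `tame_kum` (`I_AN` fixes `μ_e`, and `β^e ∈ L0 AN`): `c = i * kum e ν` on `I_AN`; so `i = 0`, `c(I_AN) = 0`.
`hom_inertia_eq_zero_of_deep`: `c(I_Ae) = 0`.  `hom_eq_zero_of_unramified`.] -/
theorem triv_eq_zero_of_apply (h2 : e ≠ 2) (hN : N.Prime) (heN : e ≠ N) (hAe : Ae.LiesOverPrime e)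
    (hAN : AN.LiesOverPrime N) (S0 STT : AddSubgroup (ZMod e)) (ν : Qbarˣ) (hν : (ν : Qbar) ^ e = N)
    (σ₀ : GQ) (hσ₀ : σ₀ ∈ AN.inertiaSubgroupIn ℚ) (hσ₀' : kum e ν σ₀ ≠ 0)
    (c : GQ → ZMod e) (hc : IsSel e N Ae AN (mulAct e (fun _ => 1)) ⊤ S0 STT c) (h0 : c σ₀ = 0) :
    c = 0 := by
  have he : e.Prime := Fact.out
  have hadd : ∀ σ τ, c (σ * τ) = c σ + c τ := by
    intro σ τ
    rw [hc.cocycle, mulAct_apply, one_mul]
  obtain ⟨β, hβ⟩ := exists_kum_of_hom c hadd hc.cont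
  have hμ : ∀ σ ∈ AN.inertiaSubgroupIn ℚ, ∀ ζ : Qbar, ζ ^ e = 1 → σ ζ = ζ := fun σ hσ ζ hζ =>
    inertia_fixes_unitRoot hN hAN heN.symm (root_of_unity_mem_unitRoots hζ) σ hσ
  have hβL : (β : Qbar) ^ e ∈ L0 AN := mem_L0_iff.2 fun σ hσ => (hβ σ (hμ σ hσ)).1
  obtain ⟨i, hi⟩ := tame_kum hN hAN heN.symm β ν hβL hν
  have hi0 : i = 0 := by
    have h1 : i * kum e ν σ₀ = 0 := by
      rw [← hi σ₀ hσ₀, ← (hβ σ₀ (hμ σ₀ hσ₀)).2, h0]
    exact (mul_eq_zero.1 h1).resolve_right hσ₀'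
  have hIN : ∀ σ ∈ AN.inertiaSubgroupIn ℚ, c σ = 0 := fun σ hσ => by
    rw [(hβ σ (hμ σ hσ)).2, hi σ hσ, hi0, zero_mul]
  have hIe : ∀ σ ∈ Ae.inertiaSubgroupIn ℚ, c σ = 0 :=
    hom_inertia_eq_zero_of_deep he h2 hAe c hadd hc.deep
  funext σ
  refine hom_eq_zero_of_unramified c hadd hc.cont (fun l hl => ?_) σ
  by_cases hle : l = e
  · subst hle
    exact ⟨Ae, hAe, hIe⟩
  by_cases hlN : l = N
  · subst hlN
    exact ⟨AN, hAN, hIN⟩
  obtain ⟨A, hA⟩ := exists_place hl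
  exact ⟨A, hA, hc.unram l hl hle hlN A hA⟩

/-- (D-BaseTriv) -/
theorem base_triv_card_le (h2 : e ≠ 2) (hN : N.Prime) (heN : e ≠ N) (hAe : Ae.LiesOverPrime e)
    (hAN : AN.LiesOverPrime N) (S0 STT : AddSubgroup (ZMod e)) :
    Finite (Sel e N Ae AN (mulAct e (fun _ => 1)) ⊤ S0 STT) ∧
      Nat.card (Sel e N Ae AN (mulAct e (fun _ => 1)) ⊤ S0 STT) ≤ Nat.card S0 * Nat.card STT := by
  have he : e.Prime := Fact.out
  have : NeZero e := ⟨he.ne_zero⟩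
  have hN0 : (N : Qbar) ≠ 0 := Nat.cast_ne_zero.2 hN.ne_zero
  obtain ⟨ν, hν'⟩ := Fermat.Agent.S55.B.exists_root e (Units.mk0 (N : Qbar) hN0)
  have hν : (ν : Qbar) ^ e = N := by
    have := congrArg Units.val hν'
    simpa using this
  obtain ⟨σ₀, hσ₀, hσ₀'⟩ := exists_inertia_kum_nu_ne_zero hN hAN ν hν
  let f : Sel e N Ae AN (mulAct e (fun _ => 1)) ⊤ S0 STT → STT :=
    fun c => ⟨c.1 σ₀, (mem_Sel.1 c.2).at_N σ₀ hσ₀⟩
  have hf : Function.Injective f := by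
    intro c c' hcc
    have h1 : c.1 σ₀ = c'.1 σ₀ := congrArg Subtype.val hcc
    have h3 := triv_eq_zero_of_apply h2 hN heN hAe hAN S0 STT ν hν σ₀ hσ₀ hσ₀' (c - c').1
      (mem_Sel.1 (c - c').2) (by
        show c.1 σ₀ - c'.1 σ₀ = 0
        rw [h1, sub_self])
    exact sub_eq_zero.1 (Subtype.ext h3)
  have hfin : Finite (Sel e N Ae AN (mulAct e (fun _ => 1)) ⊤ S0 STT) := Finite.of_injective f hf
  refine ⟨hfin, (Nat.card_le_card_of_injective f hf).trans ?_⟩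
  exact Nat.le_mul_of_pos_left _ Nat.card_pos

/-- (D-CycStruct) action `χ` (all `e`, including `e = 2`): every Selmer cocycle is `i * kum ν + j * kum ξ`.
[`exists_kum_of_cocycle`: `c = kum e β`, `β^e = b ∈ ℚ`.  `l ≠ e, N`: `β` is fixed by `I_A` (`kum_eq_zero_iff`), so `β ∈ L0 A`, `val_L0`, `val_rat`,
`val_zpow_inj`: `e ∣ v_l(b)`.  `l = e`: `dvd_of_deep_fixed`.  `rat_eq_of_padicVal`: `b = ± N^i r^e`; `η = β / (ν^i r)` has `η^e = ± 1`;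
`eq_xi_pow_of_pow_eq`; `kum` of a rational number is `0`; `kum_mul`, `kum_pow`.] -/
theorem cyc_struct (hN : N.Prime) (heN : e ≠ N) (hAe : Ae.LiesOverPrime e)
    (hAN : AN.LiesOverPrime N) {χ : GQ → ZMod e} (hχ : IsCyc e χ) (S0 STT : AddSubgroup (ZMod e))
    (ν ξ : Qbarˣ) (hν : (ν : Qbar) ^ e = N) (hξ : IsPrimitiveRoot (ξ : Qbar) (xiOrd e))
    (c : GQ → ZMod e) (hc : IsSel e N Ae AN (mulAct e χ) ⊤ S0 STT c) :
    ∃ i j : ZMod e, ∀ σ, c σ = i * kum e ν σ + j * kum e ξ σ := by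
  have he : e.Prime := Fact.out
  obtain ⟨β, b, hβ, hcβ⟩ := exists_kum_of_cocycle hχ c (fun σ τ => hc.cocycle σ τ) hc.cont
  have hfixβ : ∀ g : GQ, g ((β : Qbar) ^ e) = (β : Qbar) ^ e := fun g => by
    rw [hβ]; exact g.commutes b
  have hb0 : b ≠ 0 := by
    rintro rfl
    rw [map_zero] at hβ
    exact β.ne_zero (pow_eq_zero_iff he.ne_zero |>.1 hβ)
  have hfix_of : ∀ g : GQ, c g = 0 → g (β : Qbar) = β := fun g hg =>
    (B.kum_eq_zero_iff e (hfixβ g)).1 (by rw [← hcβ, hg])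
  -- valuations
  have hval : ∀ l : ℕ, l.Prime → l ≠ N → (e : ℤ) ∣ padicValRat l b := by
    intro l hl hlN
    by_cases hle : l = e
    · subst hle
      refine dvd_of_deep_fixed hl hAe (β : Qbar) _ ?_ ?_ (fun t ht => hfix_of t (hc.deep t ht))
      · rw [hβ]; exact rat_mem_L0 b
      · rw [hβ]; exact val_rat hl hAe hb0
    · obtain ⟨A, hA⟩ := exists_place hl
      have hL0 : (β : Qbar) ∈ L0 A :=
        mem_L0_iff.2 (fun σ hσ => hfix_of σ (hc.unram l hl hle hlN A hA σ hσ))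
      obtain ⟨k, hk⟩ := val_L0 hl hA hL0 β.ne_zero
      have h1 : A.valuation (l : Qbar) ^ (padicValRat l b) = A.valuation (l : Qbar) ^ (k * (e : ℤ)) := by
        rw [← val_rat hl hA hb0, ← hβ, map_pow, hk, zpow_mul, zpow_natCast]
      exact ⟨k, by rw [val_zpow_inj hl hA h1, mul_comm]⟩
  obtain ⟨i, r, hr0, hbr⟩ := rat_eq_of_padicVal hN hb0 hval
  -- the rational unit
  have hr0' : algebraMap ℚ Qbar r ≠ 0 := (map_ne_zero _).2 hr0
  set η : Qbar := (β : Qbar) / ((ν : Qbar) ^ i * algebraMap ℚ Qbar r) with hη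
  have hden : (ν : Qbar) ^ i * algebraMap ℚ Qbar r ≠ 0 := mul_ne_zero (pow_ne_zero _ ν.ne_zero) hr0'
  have hdene : ((ν : Qbar) ^ i * algebraMap ℚ Qbar r) ^ e = algebraMap ℚ Qbar ((N : ℚ) ^ i * r ^ e) := by
    rw [mul_pow, ← pow_mul, mul_comm i e, pow_mul, hν, map_mul, map_pow, map_pow, map_natCast]
  have hηe : η ^ e = 1 ∨ η ^ e = -1 := by
    rw [hη, div_pow, hβ, hdene]
    have hne : algebraMap ℚ Qbar ((N : ℚ) ^ i * r ^ e) ≠ 0 := by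
      rw [← hdene]; exact pow_ne_zero _ hden
    rcases hbr with h | h
    · left; rw [h]; exact div_self hne
    · right; rw [h, map_neg, neg_div, div_self hne]
  obtain ⟨j, hj⟩ := eq_xi_pow_of_pow_eq hξ hηe
  -- `β = ξ ^ j * ν ^ i * s`, `s` rational
  obtain ⟨s, hs0, hβs⟩ : ∃ s : ℚ, s ≠ 0 ∧
      (β : Qbar) = (ξ : Qbar) ^ j * (ν : Qbar) ^ i * algebraMap ℚ Qbar s := by
    have hβη : (β : Qbar) = η * ((ν : Qbar) ^ i * algebraMap ℚ Qbar r) := by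
      rw [hη, div_mul_cancel₀ _ hden]
    rcases hj with h | h
    · exact ⟨r, hr0, by rw [hβη, h]; ring⟩
    · exact ⟨-r, neg_ne_zero.2 hr0, by rw [hβη, h, map_neg]; ring⟩
  set s' : Qbarˣ := Units.mk0 (algebraMap ℚ Qbar s) ((map_ne_zero _).2 hs0) with hs'
  have hβu : β = ξ ^ j * ν ^ i * s' := by
    apply Units.ext
    rw [hβs]; simp [hs']
  have hfixν : ∀ g : GQ, g ((ν : Qbar) ^ e) = (ν : Qbar) ^ e := fun g => by
    rw [hν, map_natCast]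
  have hfixξ : ∀ g : GQ, g ((ξ : Qbar) ^ e) = (ξ : Qbar) ^ e := by
    intro g
    have hsq : ((ξ : Qbar) ^ e) ^ 2 = 1 := by
      have h1 := hξ.pow_eq_one
      unfold xiOrd at h1
      split_ifs at h1 with h2
      · rw [h2, ← pow_mul]; exact h1
      · rw [h1, one_pow]
    rcases sq_eq_one_iff.1 hsq with h | h
    · rw [h, map_one]
    · rw [h, map_neg, map_one]
  have hfixs : ∀ g : GQ, g (s' : Qbar) = s' := fun g => g.commutes s
  have hfixs' : ∀ g : GQ, g ((s' : Qbar) ^ e) = (s' : Qbar) ^ e := fun g => by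
    rw [map_pow, hfixs]
  refine ⟨(i : ZMod e), (j : ZMod e), fun σ => ?_⟩
  rw [hcβ, hβu, B.kum_mul e (B.Kum_fix_mul e (B.Kum_fix_pow e (hfixξ σ) j)
    (B.Kum_fix_pow e (hfixν σ) i)) (hfixs' σ),
    B.kum_mul e (B.Kum_fix_pow e (hfixξ σ) j) (B.Kum_fix_pow e (hfixν σ) i),
    B.kum_pow e (hfixξ σ), B.kum_pow e (hfixν σ), (B.kum_eq_zero_iff e (hfixs' σ)).2 (hfixs σ),
    nsmul_eq_mul, nsmul_eq_mul]
  ring

/-- (D-BaseCyc) [`σ₀ ∈ I_AN` with `kum ν σ₀ ≠ 0`, `τ₀ ∈ I_Ae` with `kum ξ τ₀ ≠ 0` (`Tame.lean`); `kum ξ σ₀ = 0`.  `c ↦ (c σ₀, c τ₀) ∈ STT × S0` is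
an injective homomorphism by `cyc_struct`: `c σ₀ = i * kum ν σ₀ = 0 ⇒ i = 0`; then `c τ₀ = j * kum ξ τ₀ = 0 ⇒ j = 0`.] -/
theorem base_cyc_card_le (hN : N.Prime) (heN : e ≠ N) (hAe : Ae.LiesOverPrime e)
    (hAN : AN.LiesOverPrime N) {χ : GQ → ZMod e} (hχ : IsCyc e χ) (S0 STT : AddSubgroup (ZMod e)) :
    Finite (Sel e N Ae AN (mulAct e χ) ⊤ S0 STT) ∧
      Nat.card (Sel e N Ae AN (mulAct e χ) ⊤ S0 STT) ≤ Nat.card S0 * Nat.card STT := by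
  have he : e.Prime := Fact.out
  have hne : NeZero e := ⟨he.ne_zero⟩
  -- `ν`, `ξ`
  obtain ⟨z, hz⟩ := IsAlgClosed.exists_pow_nat_eq (N : Qbar) he.pos
  have hz0 : z ≠ 0 := by
    rintro rfl
    rw [zero_pow he.ne_zero] at hz
    exact hN.ne_zero (by exact_mod_cast hz.symm)
  have hxi0 : NeZero (xiOrd e) := ⟨by
    unfold xiOrd
    split_ifs
    · norm_num
    · exact he.ne_zero⟩
  obtain ⟨x, hx⟩ := HasEnoughRootsOfUnity.exists_primitiveRoot Qbar (xiOrd e)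
  have hx0 : x ≠ 0 := hx.ne_zero hxi0.out
  set ν : Qbarˣ := Units.mk0 z hz0 with hνdef
  set ξ : Qbarˣ := Units.mk0 x hx0 with hξdef
  have hν : (ν : Qbar) ^ e = N := hz
  have hξ : IsPrimitiveRoot (ξ : Qbar) (xiOrd e) := hx
  obtain ⟨σ₀, hσ₀, hσ₀'⟩ := exists_inertia_kum_nu_ne_zero hN hAN ν hν
  obtain ⟨τ₀, hτ₀, hτ₀'⟩ := exists_inertia_kum_xi_ne_zero hAe ξ hξ
  have hξσ₀ : kum e ξ σ₀ = 0 := kum_xi_inertia_eq_zero hN hAN (Ne.symm heN) ξ hξ σ₀ hσ₀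
  -- the key vanishing
  have key : ∀ c : GQ → ZMod e, IsSel e N Ae AN (mulAct e χ) ⊤ S0 STT c → c σ₀ = 0 → c τ₀ = 0 →
      c = 0 := by
    intro c hc h1 h2
    obtain ⟨i, j, h⟩ := cyc_struct hN heN hAe hAN hχ S0 STT ν ξ hν hξ c hc
    have hi : i = 0 := by
      have h3 := h σ₀
      rw [h1, hξσ₀, mul_zero, add_zero] at h3
      exact (mul_eq_zero.1 h3.symm).resolve_right hσ₀'
    have hj : j = 0 := by
      have h3 := h τ₀
      rw [h2, hi, zero_mul, zero_add] at h3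
      exact (mul_eq_zero.1 h3.symm).resolve_right hτ₀'
    funext σ
    rw [h σ, hi, hj, zero_mul, zero_mul, add_zero]
    rfl
  let f : Sel e N Ae AN (mulAct e χ) ⊤ S0 STT → S0 × STT := fun c =>
    (⟨(c : GQ → ZMod e) τ₀, (mem_Sel.1 c.2).at_e τ₀ hτ₀⟩,
      ⟨(c : GQ → ZMod e) σ₀, (mem_Sel.1 c.2).at_N σ₀ hσ₀⟩)
  have hf : Function.Injective f := by
    intro c c' hcc
    have h1 : (c : GQ → ZMod e) τ₀ = (c' : GQ → ZMod e) τ₀ :=
      congrArg (fun p : S0 × STT => (p.1 : ZMod e)) hcc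
    have h2 : (c : GQ → ZMod e) σ₀ = (c' : GQ → ZMod e) σ₀ :=
      congrArg (fun p : S0 × STT => (p.2 : ZMod e)) hcc
    have h3 := key ((c - c' : Sel e N Ae AN (mulAct e χ) ⊤ S0 STT) : GQ → ZMod e)
      (mem_Sel.1 (c - c').2)
      (by rw [AddSubgroup.coe_sub, Pi.sub_apply, h2, sub_self])
      (by rw [AddSubgroup.coe_sub, Pi.sub_apply, h1, sub_self])
    rw [AddSubgroup.coe_sub, sub_eq_zero] at h3
    exact Subtype.ext h3
  refine ⟨Finite.of_injective f hf, ?_⟩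
  rw [← Nat.card_prod]
  exact Nat.card_le_card_of_injective f hf

theorem BaseCyc_zmod_two : ∀ x : ZMod 2, x ≠ 0 → 1 = x := by decide

/-- (D-Base) both cases. [for `e = 2` and `ψ = 1`: `ψ = χ` since `χ σ` is a unit of `ZMod 2`.] -/
theorem base_card_le (hN : N.Prime) (heN : e ≠ N) (hAe : Ae.LiesOverPrime e)
    (hAN : AN.LiesOverPrime N) {χ : GQ → ZMod e} (hχ : IsCyc e χ) (ψ : GQ → ZMod e)
    (hψ : (∀ σ, ψ σ = 1) ∨ ψ = χ) (S0 STT : AddSubgroup (ZMod e)) :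
    Finite (Sel e N Ae AN (mulAct e ψ) ⊤ S0 STT) ∧
      Nat.card (Sel e N Ae AN (mulAct e ψ) ⊤ S0 STT) ≤ Nat.card S0 * Nat.card STT := by
  rcases hψ with hψ | rfl
  · by_cases h2 : e = 2
    · have hψχ : ψ = χ := by
        funext σ
        rw [hψ σ]
        have h0 := hχ.ne_zero σ
        subst h2
        exact BaseCyc_zmod_two _ h0
      rw [hψχ]
      exact base_cyc_card_le hN heN hAe hAN hχ S0 STT
    · have hψ1 : ψ = fun _ => 1 := funext hψ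
      rw [hψ1]
      exact base_triv_card_le h2 hN heN hAe hAN S0 STT
  · exact base_cyc_card_le hN heN hAe hAN hχ S0 STT

end Fermat.Agent.S15.D
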