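import Fermat.Agent.S15.D.Defs

/-!
# S15 / D : the inertia group is closed; compactness  (TASK S15/D-Closed)
-/

set_option autoImplicit false

namespace Fermat.Agent.S15.D

open Fermat.Agent.S55.Places Fermat.Agent.S36.Base

attribute [local instance] isAlgClosureQbar

/-- evaluation at `x` is locally constant on `GQ`. -/
theorem Closed_isLocallyConstant_apply (x : Qbar) : IsLocallyConstant (fun σ : GQ => σ x) := by
  have halg : Algebra.IsIntegral ℚ Qbar := IsAlgClosure.isAlgebraic.isIntegral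
  rw [IsLocallyConstant.iff_isOpen_fiber_apply]
  intro σ₀
  have h1 : IsOpen (MulAction.stabilizer GQ x : Set GQ) := stabilizer_isOpen_of_isIntegral x
  have h2 : Continuous (fun σ : GQ => σ₀⁻¹ * σ) := continuous_const.mul continuous_id
  have h3 : (fun σ : GQ => σ x) ⁻¹' {σ₀ x}
      = (fun σ : GQ => σ₀⁻¹ * σ) ⁻¹' (MulAction.stabilizer GQ x : Set GQ) := by
    ext σ
    simp only [Set.mem_preimage, Set.mem_singleton_iff, SetLike.mem_coe,
      MulAction.mem_stabilizer_iff, mul_smul, inv_smul_eq_iff]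
    rfl
  rw [h3]
  exact h1.preimage h2

/-- evaluation of the inverse at `x` is locally constant on `GQ`. -/
theorem Closed_isLocallyConstant_inv_apply (x : Qbar) :
    IsLocallyConstant (fun σ : GQ => σ⁻¹ x) :=
  (Closed_isLocallyConstant_apply x).comp_continuous continuous_inv

/-- `{σ : σ x = y}` is open and closed in the Krull topology. -/
theorem isClopen_setOf_apply_eq (x y : Qbar) : IsClopen {σ : GQ | σ x = y} :=
  (Closed_isLocallyConstant_apply x).isClopen_fiber y

/-- `I_A` is closed.  [`S55.mem_inertia_iff`: `σ • A = A ∧ ∀ x ∈ A, σ x - x ∈ A.nonunits`; each condition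
depends only on finitely many values `σ x`, `σ⁻¹ x`.] -/
theorem isClosed_inertia (A : ValuationSubring Qbar) :
    IsClosed ((A.inertiaSubgroupIn ℚ : Subgroup GQ) : Set GQ) := by
  have h : ((A.inertiaSubgroupIn ℚ : Subgroup GQ) : Set GQ)
      = (⋂ x : Qbar, (fun σ : GQ => σ⁻¹ x) ⁻¹' {y | y ∈ A ↔ x ∈ A}) ∩
        (⋂ x : Qbar, (fun σ : GQ => σ x) ⁻¹' {y | x ∈ A → y - x ∈ A.nonunits}) := by
    ext σ
    simp only [SetLike.mem_coe, Set.mem_inter_iff, Set.mem_iInter, Set.mem_preimage,
      Set.mem_ofPred_eq]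
    rw [Fermat.Agent.S55.mem_inertia_iff]
    refine and_congr ?_ Iff.rfl
    rw [SetLike.ext_iff]
    refine forall_congr' fun x => ?_
    rw [Fermat.Agent.S55.mem_smul_valuationSubring_iff]
  rw [h]
  refine IsClosed.inter (isClosed_iInter fun x => ?_) (isClosed_iInter fun x => ?_)
  · rw [← isOpen_compl_iff, ← Set.preimage_compl]
    exact (Closed_isLocallyConstant_inv_apply x) _
  · rw [← isOpen_compl_iff, ← Set.preimage_compl]
    exact (Closed_isLocallyConstant_apply x) _

/-- Galois correspondence for `I_A`. -/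
theorem mem_inertia_of_fixes_L0 (A : ValuationSubring Qbar) (σ : GQ) (h : ∀ x ∈ L0 A, σ x = x) :
    σ ∈ A.inertiaSubgroupIn ℚ := by
  have hgal : IsGalois ℚ Qbar := inferInstance
  have h1 := InfiniteGalois.fixingSubgroup_fixedField
    (⟨A.inertiaSubgroupIn ℚ, isClosed_inertia A⟩ : ClosedSubgroup GQ)
  have h2 : σ ∈ (IntermediateField.fixedField (A.inertiaSubgroupIn ℚ : Subgroup GQ)).fixingSubgroup := by
    rw [IntermediateField.mem_fixingSubgroup_iff]
    exact h
  have h3 : σ ∈ ((⟨A.inertiaSubgroupIn ℚ, isClosed_inertia A⟩ : ClosedSubgroup GQ) : Subgroup GQ) := by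
    rw [← h1]
    exact h2
  exact h3

/-- **compactness**: if `β` is fixed by `I''` then it is already fixed by the elements of `I_A` fixing a FINITE set
of unit roots.  [The closed sets `I_A ∩ Stab z ∩ {t : t β ≠ β}`, `z ∈ unitRoots e A`, have empty intersection in the
compact space `GQ`: `IsCompact.elim_finite_subfamily_closed`.] -/
theorem exists_finset_of_deep_fixed (e : ℕ) (A : ValuationSubring Qbar) (β : Qbar)
    (h : ∀ t ∈ deepInertia e A, t β = β) :
    ∃ s : Finset Qbar, (∀ z ∈ s, z ∈ unitRoots e A) ∧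
      ∀ t ∈ A.inertiaSubgroupIn ℚ, (∀ z ∈ s, t z = z) → t β = β := by
  classical
  have hgal : IsGalois ℚ Qbar := inferInstance
  have hK : IsCompact (((A.inertiaSubgroupIn ℚ : Subgroup GQ) : Set GQ) ∩ {t : GQ | t β = β}ᶜ) :=
    ((isClosed_inertia A).inter (isClopen_setOf_apply_eq β β).compl.isClosed).isCompact
  obtain ⟨u, hu⟩ := hK.elim_finite_subfamily_closed
    (fun z : unitRoots e A => {t : GQ | t (z : Qbar) = z})
    (fun z => (isClopen_setOf_apply_eq _ _).isClosed) (by
      rw [Set.eq_empty_iff_forall_notMem]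
      rintro t ⟨⟨ht1, ht2⟩, ht3⟩
      refine ht2 (h t (mem_deepInertia.mpr ⟨ht1, fun z hz => ?_⟩))
      exact Set.mem_iInter.mp ht3 ⟨z, hz⟩)
  refine ⟨u.image Subtype.val, ?_, ?_⟩
  · intro z hz
    obtain ⟨w, _, rfl⟩ := Finset.mem_image.mp hz
    exact w.2
  · intro t ht hfix
    by_contra hne
    have : t ∈ (((A.inertiaSubgroupIn ℚ : Subgroup GQ) : Set GQ) ∩ {t : GQ | t β = β}ᶜ) ∩
        ⋂ i ∈ u, {t : GQ | t ((i : unitRoots e A) : Qbar) = i} := by
      refine ⟨⟨ht, hne⟩, ?_⟩
      simp only [Set.mem_iInter]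
      intro i hi
      exact hfix _ (Finset.mem_image_of_mem _ hi)
    rw [hu] at this
    exact this

end Fermat.Agent.S15.D
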