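import Fermat.Agent.S15.D.Defs

/-!
# S15 / D : the cyclotomic character
-/

set_option autoImplicit false

namespace Fermat.Agent.S15.D

open Fermat.Agent.S55 Fermat.Agent.S55.Places

variable {e : ℕ} [Fact e.Prime]

/-- uniqueness of the cyclotomic character. -/
theorem IsCyc.eq_cycloChar {χ : GQ → ZMod e} (hχ : IsCyc e χ) (σ : GQ) :
    χ σ = ((ExtCitation.cycloChar e σ : (ZMod e)ˣ) : ZMod e) := by
  have : NeZero e := ⟨(Fact.out : e.Prime).ne_zero⟩
  refine modularCyclotomicCharacter.unique (AlgebraicClosure ℚ)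
    (ExtCitation.card_rootsOfUnity_eq_self e) (σ : AlgebraicClosure ℚ ≃+* AlgebraicClosure ℚ)
    (c := χ σ) ?_
  intro t ht
  have h1 : ((t : Qbar)) ^ e = 1 := by
    rw [mem_rootsOfUnity] at ht
    have := congrArg Units.val ht
    simpa using this
  exact hχ σ t h1

theorem isCyc_cycloChar : IsCyc e (fun σ => ((ExtCitation.cycloChar e σ : (ZMod e)ˣ) : ZMod e)) := by
  intro σ ζ hζ
  have hu : IsUnit ζ := IsUnit.of_pow_eq_one hζ (Fact.out : e.Prime).ne_zero
  obtain ⟨u, rfl⟩ := hu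
  exact cycloChar_spec e σ u (by ext; simpa using hζ)

theorem IsCyc.map_mul {χ : GQ → ZMod e} (hχ : IsCyc e χ) (σ τ : GQ) : χ (σ * τ) = χ σ * χ τ := by
  rw [hχ.eq_cycloChar, hχ.eq_cycloChar, hχ.eq_cycloChar, _root_.map_mul, Units.val_mul]

theorem IsCyc.map_one {χ : GQ → ZMod e} (hχ : IsCyc e χ) : χ 1 = 1 := by
  rw [hχ.eq_cycloChar, _root_.map_one, Units.val_one]

theorem IsCyc.ne_zero {χ : GQ → ZMod e} (hχ : IsCyc e χ) (σ : GQ) : χ σ ≠ 0 := by
  rw [hχ.eq_cycloChar]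
  exact Units.ne_zero _

/-- `χ σ = 1` iff `σ` fixes `μ_e`. -/
theorem IsCyc.eq_one_iff {χ : GQ → ZMod e} (hχ : IsCyc e χ) (σ : GQ) :
    χ σ = 1 ↔ ∀ ζ : Qbar, ζ ^ e = 1 → σ ζ = ζ := by
  have hp : e.Prime := Fact.out
  have : Fact (1 < e) := ⟨hp.one_lt⟩
  constructor
  · intro h ζ hζ
    rw [hχ σ ζ hζ, h, ZMod.val_one, pow_one]
  · intro h
    classical
    have h1 : IsCyc e (Function.update χ σ 1) := by
      intro τ ζ hζ
      by_cases hτ : τ = σ
      · subst hτ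
        rw [Function.update_self, ZMod.val_one, pow_one]
        exact h ζ hζ
      · rw [Function.update_of_ne hτ]
        exact hχ τ ζ hζ
    have h2 := h1.eq_cycloChar σ
    rw [Function.update_self] at h2
    rw [hχ.eq_cycloChar, ← h2]

end Fermat.Agent.S15.D
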