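import Fermat.Agent.S15.D.Defs

/-!
# S15 / D : finite Kummer theory in group form  (TASK S15/D-KummerGrp)
-/

set_option autoImplicit false

namespace Fermat.Agent.S15.D

open Fermat.Agent.S55.Places

/-- `κ_x t = t x / x`. -/
noncomputable def KummerGrp_kap (x : Qbar) (t : GQ) : Qbar := t x / x

theorem KummerGrp_kap_spec {x : Qbar} (hx : x ≠ 0) (t : GQ) : t x = KummerGrp_kap x t * x := by
  rw [KummerGrp_kap, div_mul_cancel₀ _ hx]

theorem KummerGrp_kap_pow_e {e : ℕ} {x : Qbar} (hx : x ≠ 0) {t : GQ} (ht : t (x ^ e) = x ^ e) :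
    KummerGrp_kap x t ^ e = 1 := by
  rw [KummerGrp_kap, div_pow, ← map_pow, ht, div_self (pow_ne_zero e hx)]

theorem KummerGrp_kap_eq_one_iff {x : Qbar} (hx : x ≠ 0) (t : GQ) :
    KummerGrp_kap x t = 1 ↔ t x = x := by
  rw [KummerGrp_kap, div_eq_one_iff_eq hx]

theorem KummerGrp_kap_mul_elem {x y : Qbar} (t : GQ) :
    KummerGrp_kap (x * y) t = KummerGrp_kap x t * KummerGrp_kap y t := by
  rw [KummerGrp_kap, KummerGrp_kap, KummerGrp_kap, map_mul, mul_div_mul_comm]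

theorem KummerGrp_kap_pow_elem {x : Qbar} (n : ℕ) (t : GQ) :
    KummerGrp_kap (x ^ n) t = KummerGrp_kap x t ^ n := by
  rw [KummerGrp_kap, KummerGrp_kap, map_pow, div_pow]

theorem KummerGrp_kap_mul {x : Qbar} (hx : x ≠ 0) {t t' : GQ}
    (h : t (KummerGrp_kap x t') = KummerGrp_kap x t') :
    KummerGrp_kap x (t * t') = KummerGrp_kap x t * KummerGrp_kap x t' := by
  have h1 : (t * t') x = t (t' x) := rfl
  rw [KummerGrp_kap, h1, KummerGrp_kap_spec hx t', map_mul, h, KummerGrp_kap_spec hx t]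
  field_simp

/-- `H` a subgroup of `GQ` fixing `μ_e`; `z ∈ s` and `β` have `e`-th powers fixed by `H`.  If every `t ∈ H` fixing `s`
pointwise fixes `β`, then `β * ∏ z ^ a z` is fixed by `H` for suitable exponents.
[Induction on `s` (generalising `β`): `s = insert z₀ s'`, `H₁ = {t ∈ H : t fixes s'}`; `κ_x t := t x / x ∈ μ_e` is a hom on `H₁`
for `x = z₀, β` (because `H` fixes `μ_e`), `ker κ_{z₀} ≤ ker κ_β`, `μ_e` cyclic of prime order `⇒ κ_β = κ_{z₀} ^ a` on `H₁`;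
apply the induction hypothesis to `β * z₀ ^ (e - a)`.] -/
theorem exists_pow_prod_fixed {e : ℕ} (he : e.Prime) (H : Subgroup GQ)
    (hH : ∀ t ∈ H, ∀ ζ : Qbar, ζ ^ e = 1 → t ζ = ζ)
    (s : Finset Qbar) (hs : ∀ z ∈ s, z ≠ 0 ∧ ∀ t ∈ H, t (z ^ e) = z ^ e)
    (β : Qbar) (hβ0 : β ≠ 0) (hβ : ∀ t ∈ H, t (β ^ e) = β ^ e)
    (hfix : ∀ t ∈ H, (∀ z ∈ s, t z = z) → t β = β) :
    ∃ a : Qbar → ℕ, ∀ t ∈ H, t (β * ∏ z ∈ s, z ^ a z) = β * ∏ z ∈ s, z ^ a z := by
  classical
  have : Fact e.Prime := ⟨he⟩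
  have : NeZero e := ⟨he.ne_zero⟩
  induction s using Finset.induction_on generalizing β with
  | empty =>
    refine ⟨fun _ => 0, fun t ht => ?_⟩
    simp only [Finset.prod_empty, mul_one]
    exact hfix t ht (fun z hz => absurd hz (Finset.notMem_empty z))
  | insert z₀ s' hz₀ ih =>
    have hz₀0 : z₀ ≠ 0 := (hs z₀ (Finset.mem_insert_self _ _)).1
    have hz₀e : ∀ t ∈ H, t (z₀ ^ e) = z₀ ^ e := (hs z₀ (Finset.mem_insert_self _ _)).2
    have hs' : ∀ z ∈ s', z ≠ 0 ∧ ∀ t ∈ H, t (z ^ e) = z ^ e :=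
      fun z hz => hs z (Finset.mem_insert_of_mem hz)
    -- multiplicativity on `H`
    have hmul : ∀ x : Qbar, x ≠ 0 → (∀ t ∈ H, t (x ^ e) = x ^ e) → ∀ t ∈ H, ∀ t' ∈ H,
        KummerGrp_kap x (t * t') = KummerGrp_kap x t * KummerGrp_kap x t' := by
      intro x hx hxe t ht t' ht'
      exact KummerGrp_kap_mul hx (hH t ht _ (KummerGrp_kap_pow_e hx (hxe t' ht')))
    have hpow : ∀ x : Qbar, x ≠ 0 → (∀ t ∈ H, t (x ^ e) = x ^ e) → ∀ t ∈ H, ∀ n : ℕ,
        KummerGrp_kap x (t ^ n) = KummerGrp_kap x t ^ n := by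
      intro x hx hxe t ht n
      induction n with
      | zero =>
        rw [pow_zero, pow_zero, KummerGrp_kap_eq_one_iff hx]
        rfl
      | succ n ihn => rw [pow_succ, hmul x hx hxe _ (H.pow_mem ht n) t ht, ihn, pow_succ]
    -- the subgroup `H₁`
    let P : GQ → Prop := fun t => t ∈ H ∧ ∀ z ∈ s', t z = z
    have hPmul : ∀ t t', P t → P t' → P (t * t') := by
      rintro t t' ⟨h1, h2⟩ ⟨h1', h2'⟩
      refine ⟨H.mul_mem h1 h1', fun z hz => ?_⟩
      show t (t' z) = z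
      rw [h2' z hz, h2 z hz]
    have hPpow : ∀ t, P t → ∀ n : ℕ, P (t ^ n) := by
      intro t ht n
      induction n with
      | zero => exact ⟨H.one_mem, fun z _ => rfl⟩
      | succ n ihn => rw [pow_succ]; exact hPmul _ _ ihn ht
    have hker : ∀ t, P t → KummerGrp_kap z₀ t = 1 → KummerGrp_kap β t = 1 := by
      intro t ht h1
      rw [KummerGrp_kap_eq_one_iff hβ0]
      refine hfix t ht.1 (fun z hz => ?_)
      rcases Finset.mem_insert.1 hz with rfl | hz
      · exact (KummerGrp_kap_eq_one_iff hz₀0 t).1 h1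
      · exact ht.2 z hz
    -- the exponent
    obtain ⟨a, ha⟩ : ∃ a : ℕ, ∀ t, P t → KummerGrp_kap β t = KummerGrp_kap z₀ t ^ a := by
      by_cases htriv : ∀ t, P t → KummerGrp_kap z₀ t = 1
      · exact ⟨0, fun t ht => by rw [pow_zero]; exact hker t ht (htriv t ht)⟩
      · push Not at htriv
        obtain ⟨t₀, ht₀, hne⟩ := htriv
        set ζ₀ := KummerGrp_kap z₀ t₀ with hζ₀
        have hζe : ζ₀ ^ e = 1 := KummerGrp_kap_pow_e hz₀0 (hz₀e t₀ ht₀.1)
        have hprim : IsPrimitiveRoot ζ₀ e := by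
          have := orderOf_eq_prime hζe hne
          rw [← this]
          exact IsPrimitiveRoot.orderOf ζ₀
        obtain ⟨a, -, ha⟩ := hprim.eq_pow_of_pow_eq_one (KummerGrp_kap_pow_e hβ0 (hβ t₀ ht₀.1))
        refine ⟨a, fun t ht => ?_⟩
        obtain ⟨b, -, hb⟩ := hprim.eq_pow_of_pow_eq_one (KummerGrp_kap_pow_e hz₀0 (hz₀e t ht.1))
        have hP' : P (t * t₀ ^ ((e - 1) * b)) := hPmul _ _ ht (hPpow t₀ ht₀ _)
        have hee : e - 1 + 1 = e := Nat.sub_add_cancel he.one_le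
        have h1 : KummerGrp_kap z₀ (t * t₀ ^ ((e - 1) * b)) = 1 := by
          rw [hmul z₀ hz₀0 hz₀e t ht.1 _ (H.pow_mem ht₀.1 _), hpow z₀ hz₀0 hz₀e t₀ ht₀.1, ← hζ₀, ← hb,
            ← pow_add]
          have : b + (e - 1) * b = e * b := by
            calc b + (e - 1) * b = (e - 1 + 1) * b := by ring
              _ = e * b := by rw [hee]
          rw [this, pow_mul, hζe, one_pow]
        have h2 := hker _ hP' h1
        rw [hmul β hβ0 hβ t ht.1 _ (H.pow_mem ht₀.1 _), hpow β hβ0 hβ t₀ ht₀.1, ← ha] at h2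
        -- `κ_β t * ζ₀ ^ (a (e-1) b) = 1`
        have h3 : (ζ₀ ^ a) ^ ((e - 1) * b) * (ζ₀ ^ b) ^ a = 1 := by
          rw [← pow_mul, ← pow_mul, ← pow_add]
          have : a * ((e - 1) * b) + b * a = e * (a * b) := by
            calc a * ((e - 1) * b) + b * a = (e - 1 + 1) * (a * b) := by ring
              _ = e * (a * b) := by rw [hee]
          rw [this, pow_mul, hζe, one_pow]
        have h4 : (ζ₀ ^ a) ^ ((e - 1) * b) ≠ 0 :=
          pow_ne_zero _ (pow_ne_zero _ (hprim.ne_zero he.ne_zero))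
        rw [← hb]
        apply mul_right_cancel₀ h4
        rw [h2, mul_comm, h3]
    -- the new `β`
    have hee : e - 1 + 1 = e := Nat.sub_add_cancel he.one_le
    set β' := β * z₀ ^ ((e - 1) * a) with hβ'
    have hβ'0 : β' ≠ 0 := mul_ne_zero hβ0 (pow_ne_zero _ hz₀0)
    have hβ'e : ∀ t ∈ H, t (β' ^ e) = β' ^ e := by
      intro t ht
      have : β' ^ e = β ^ e * (z₀ ^ e) ^ ((e - 1) * a) := by
        rw [hβ', mul_pow, ← pow_mul, ← pow_mul, mul_comm e]
      rw [this, map_mul, hβ t ht, map_pow, hz₀e t ht]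
    have hfix' : ∀ t ∈ H, (∀ z ∈ s', t z = z) → t β' = β' := by
      intro t ht hts
      rw [← KummerGrp_kap_eq_one_iff hβ'0, hβ', KummerGrp_kap_mul_elem, KummerGrp_kap_pow_elem,
        ha t ⟨ht, hts⟩, ← pow_add]
      have : a + (e - 1) * a = e * a := by
        calc a + (e - 1) * a = (e - 1 + 1) * a := by ring
          _ = e * a := by rw [hee]
      rw [this, pow_mul, KummerGrp_kap_pow_e hz₀0 (hz₀e t ht), one_pow]
    obtain ⟨a', ha'⟩ := ih hs' β' hβ'0 hβ'e hfix'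
    refine ⟨Function.update a' z₀ ((e - 1) * a), fun t ht => ?_⟩
    have hprod : β * ∏ z ∈ insert z₀ s', z ^ Function.update a' z₀ ((e - 1) * a) z =
        β' * ∏ z ∈ s', z ^ a' z := by
      rw [Finset.prod_insert hz₀, Function.update_self, hβ', mul_assoc]
      congr 2
      refine Finset.prod_congr rfl fun z hz => ?_
      have hne : z ≠ z₀ := fun h => hz₀ (by rw [← h]; exact hz)
      rw [Function.update_of_ne hne]
    rw [hprod]
    exact ha' t ht

end Fermat.Agent.S15.D
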