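import Fermat.Agent.S15.D.Val
import Fermat.Agent.S15.D.Closed
import Fermat.Agent.S15.D.KummerGrp
import Fermat.Agent.S15.D.Cyc

/-!
# S15 / D : the two consequences of the condition `c(I'') = 0`
TASKS S15/D-Norm, S15/D-DeepMu, S15/D-Xi, S15/D-DeepTriv.
-/

set_option autoImplicit false

namespace Fermat.Agent.S15.D

open Fermat.Agent.S55.Places Fermat.Agent.S36.Base

variable {e : ℕ} {A : ValuationSubring Qbar}

/-- (TASK D-Norm) `x` fixed by `I' = {t ∈ I_A : t fixes μ_e}`: then `v(x)^(e-1) ∈ v(e)^ℤ`.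
[`I'` is the kernel of `I_A → (ZMod e)ˣ`, so `d = [I_A : I']` divides `e - 1`; `P = ∏_{τ ∈ I_A / I'} τ x` is fixed by `I_A`,
`v(P) = v(x)^d` by `S05.val_sigma`; `val_L0`.] -/
theorem val_pow_of_fixed (he : e.Prime) (hA : A.LiesOverPrime e) {x : Qbar} (hx : x ≠ 0)
    (hfix : ∀ t ∈ A.inertiaSubgroupIn ℚ, (∀ ζ : Qbar, ζ ^ e = 1 → t ζ = ζ) → t x = x) :
    ∃ k : ℤ, A.valuation x ^ (e - 1) = A.valuation (e : Qbar) ^ k := by
  classical
  have : Fact e.Prime := ⟨he⟩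
  have halg : Algebra.IsAlgebraic ℚ Qbar := AlgebraicClosure.isAlgebraic ℚ
  set I : Subgroup GQ := A.inertiaSubgroupIn ℚ with hI
  -- the orbit of `x` is finite
  have hfinO : (MulAction.orbit I x).Finite := by
    refine ((minpoly ℚ x).rootSet_finite Qbar).subset ?_
    rintro _ ⟨τ, rfl⟩
    rw [Polynomial.mem_rootSet]
    refine ⟨minpoly.ne_zero (halg.isAlgebraic x).isIntegral, ?_⟩
    change Polynomial.aeval ((τ : GQ) x) (minpoly ℚ x) = 0
    rw [← AlgEquiv.coe_toAlgHom, Polynomial.aeval_algHom_apply, minpoly.aeval, map_zero]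
  set O : Finset Qbar := hfinO.toFinset with hO
  have hmemO : ∀ z, z ∈ O ↔ ∃ τ ∈ I, τ x = z := by
    intro z
    rw [hO, Set.Finite.mem_toFinset]
    constructor
    · rintro ⟨τ, rfl⟩
      exact ⟨τ, τ.2, rfl⟩
    · rintro ⟨τ, hτ, rfl⟩
      exact ⟨⟨τ, hτ⟩, rfl⟩
  -- the norm
  set P : Qbar := ∏ z ∈ O, z with hP
  have hP0 : P ≠ 0 := by
    rw [hP, Finset.prod_ne_zero_iff]
    intro z hz
    obtain ⟨τ, -, rfl⟩ := (hmemO z).1 hz
    exact (map_ne_zero τ).2 hx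
  have hPfix : P ∈ L0 A := by
    rw [mem_L0_iff]
    intro σ hσ
    have himg : O.image σ = O := by
      apply Finset.eq_of_subset_of_card_le
      · intro z hz
        obtain ⟨w, hw, rfl⟩ := Finset.mem_image.1 hz
        obtain ⟨τ, hτ, rfl⟩ := (hmemO w).1 hw
        exact (hmemO _).2 ⟨σ * τ, I.mul_mem hσ hτ, rfl⟩
      · rw [Finset.card_image_of_injective _ σ.injective]
    rw [hP, map_prod]
    conv_rhs => rw [← himg]
    rw [Finset.prod_image (fun a _ b _ h => σ.injective h)]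
  have hvP : A.valuation P = A.valuation x ^ O.card := by
    rw [hP, map_prod, ← Finset.prod_const]
    refine Finset.prod_congr rfl fun z hz => ?_
    obtain ⟨τ, hτ, rfl⟩ := (hmemO z).1 hz
    exact Fermat.Agent.S05.val_sigma A τ hτ x
  -- the cardinality of the orbit divides `e - 1`
  have hdvd : O.card ∣ e - 1 := by
    set χ : I →* (ZMod e)ˣ := (ExtCitation.cycloChar e).comp I.subtype with hχ
    have hker : χ.ker ≤ MulAction.stabilizer I x := by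
      intro t ht
      rw [MulAction.mem_stabilizer_iff]
      refine hfix t t.2 fun ζ hζ => ?_
      have hζ0 : ζ ≠ 0 := by
        rintro rfl
        rw [zero_pow he.ne_zero] at hζ
        exact zero_ne_one hζ
      have h1 := Fermat.Agent.S55.cycloChar_spec e (t : GQ) (Units.mk0 ζ hζ0)
        (Units.ext (by simpa using hζ))
      have h2 : ExtCitation.cycloChar e (t : GQ) = 1 := ht
      rw [h2, Units.val_one, ZMod.val_one, pow_one] at h1
      exact h1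
    have h1 : (MulAction.stabilizer I x).index ∣ χ.ker.index := Subgroup.index_dvd_of_le hker
    rw [MulAction.index_stabilizer, Subgroup.index_ker, Set.ncard_eq_toFinset_card _ hfinO] at h1
    refine h1.trans ?_
    have h2 := Subgroup.card_subgroup_dvd_card χ.range
    rwa [Nat.card_eq_fintype_card (α := (ZMod e)ˣ), ZMod.card_units] at h2
  obtain ⟨m, hm⟩ := hdvd
  obtain ⟨k, hk⟩ := val_L0 he hA hPfix hP0
  refine ⟨k * m, ?_⟩
  rw [hm, pow_mul, ← hvP, hk, zpow_mul, zpow_natCast]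

/-- `I' = {t ∈ I_A : t fixes μ_e}` as a subgroup. -/
def DeepMu_I' (e : ℕ) (A : ValuationSubring Qbar) : Subgroup GQ where
  carrier := {t | t ∈ A.inertiaSubgroupIn ℚ ∧ ∀ ζ : Qbar, ζ ^ e = 1 → t ζ = ζ}
  one_mem' := ⟨Subgroup.one_mem _, fun _ _ => rfl⟩
  mul_mem' := by
    rintro a b ⟨ha, ha'⟩ ⟨hb, hb'⟩
    refine ⟨Subgroup.mul_mem _ ha hb, fun z hz => ?_⟩
    rw [AlgEquiv.mul_apply, hb' z hz, ha' z hz]
  inv_mem' := by
    rintro a ⟨ha, ha'⟩
    refine ⟨Subgroup.inv_mem _ ha, fun z hz => ?_⟩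
    conv_lhs => rw [← ha' z hz]
    exact AlgEquiv.symm_apply_apply a z

/-- (TASK D-DeepMu) **`e^{1/e} ∉ K(μ_e, U_K^{1/e})`**: if `β ^ e ∈ K = L0 A` has valuation `v(e)^n` and `β` is fixed by `I''`,
then `e ∣ n`.
[`exists_finset_of_deep_fixed` gives `s`; `exists_pow_prod_fixed` with `H = I'` gives `β' = β ∏ z^a` fixed by `I'`;
`v(β') = v(β)` (`val_unitRoots`); `val_pow_of_fixed`: `v(β)^(e-1) = v(e)^k`; so `v(e)^(n(e-1)) = v(e)^(k e)`, `val_zpow_inj`.] -/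
theorem dvd_of_deep_fixed (he : e.Prime) (hA : A.LiesOverPrime e) (β : Qbar) (n : ℤ)
    (hb : β ^ e ∈ L0 A) (hn : A.valuation (β ^ e) = A.valuation (e : Qbar) ^ n)
    (hfix : ∀ t ∈ deepInertia e A, t β = β) : (e : ℤ) ∣ n := by
  have hve0 : A.valuation (e : Qbar) ≠ 0 := val_prime_ne_zero he
  have hβ0 : β ≠ 0 := by
    rintro rfl
    rw [zero_pow he.ne_zero, map_zero] at hn
    exact zpow_ne_zero n hve0 hn.symm
  classical
  obtain ⟨s, hs, hsfix⟩ : ∃ s : Finset Qbar, (∀ z ∈ s, z ∈ unitRoots e A ∧ z ≠ 0) ∧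
      ∀ t ∈ A.inertiaSubgroupIn ℚ, (∀ z ∈ s, t z = z) → t β = β := by
    obtain ⟨s, hs, hsfix⟩ := exists_finset_of_deep_fixed e A β hfix
    refine ⟨s.erase 0, fun z hz => ⟨hs z (Finset.mem_of_mem_erase hz), Finset.ne_of_mem_erase hz⟩,
      fun t ht h => hsfix t ht fun z hz => ?_⟩
    by_cases hz0 : z = 0
    · rw [hz0, map_zero]
    · exact h z (Finset.mem_erase.mpr ⟨hz0, hz⟩)
  have hs0 : ∀ z ∈ s, z ≠ 0 := fun z hz => (hs z hz).2
  replace hs : ∀ z ∈ s, z ∈ unitRoots e A := fun z hz => (hs z hz).1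
  have hsv : ∀ z ∈ s, A.valuation z = 1 := fun z hz =>
    val_unitRoots he.ne_zero (hs z hz) (hs0 z hz)
  obtain ⟨a, ha⟩ := exists_pow_prod_fixed he (DeepMu_I' e A) (fun t ht => ht.2) s
    (fun z hz => ⟨hs0 z hz, fun t ht => (hs z hz).2.2 t ht.1⟩) β hβ0
    (fun t ht => mem_L0_iff.1 hb t ht.1) (fun t ht h => hsfix t ht.1 h)
  have hprod0 : ∏ z ∈ s, z ^ a z ≠ 0 :=
    Finset.prod_ne_zero_iff.2 fun z hz => pow_ne_zero _ (hs0 z hz)
  have hvprod : A.valuation (∏ z ∈ s, z ^ a z) = 1 := by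
    rw [map_prod]
    exact Finset.prod_eq_one fun z hz => by rw [map_pow, hsv z hz, one_pow]
  obtain ⟨k, hk⟩ := val_pow_of_fixed he hA (x := β * ∏ z ∈ s, z ^ a z) (mul_ne_zero hβ0 hprod0)
    (fun t ht h => ha t ⟨ht, h⟩)
  rw [map_mul, hvprod, mul_one] at hk
  rw [map_pow] at hn
  have h1 : A.valuation (e : Qbar) ^ (n * ((e - 1 : ℕ) : ℤ)) =
      A.valuation (e : Qbar) ^ (k * (e : ℤ)) := by
    rw [zpow_mul, zpow_mul, zpow_natCast, zpow_natCast, ← hn, ← hk, ← pow_mul, ← pow_mul, mul_comm]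
  have h2 := val_zpow_inj he hA h1
  have h3 : ((e - 1 : ℕ) : ℤ) = (e : ℤ) - 1 := by
    rw [Nat.cast_sub he.one_le, Nat.cast_one]
  rw [h3] at h2
  exact ⟨n - k, by linarith⟩

/-- the order of the root of unity `ξ`: `ξ ^ e = ± 1` generates `{η : η ^ e ∈ {1, -1}}` modulo `± 1`. -/
def xiOrd (e : ℕ) : ℕ := if e = 2 then 4 else e

private theorem DXi_val_one_sub_le {m : ℕ} (hm : m ≠ 0) {ζ μ : Qbar} (hζ : IsPrimitiveRoot ζ m)
    (hμ : μ ^ m = 1) : A.valuation (1 - μ) ≤ A.valuation (1 - ζ) := by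
  have : NeZero m := ⟨hm⟩
  obtain ⟨i, -, rfl⟩ := hζ.eq_pow_of_pow_eq_one hμ
  have hζA : ζ ∈ A := by
    have h1 : A.valuation ζ = 1 := val_eq_one_of_pow hm (by rw [hζ.pow_eq_one, map_one])
    exact ((val_eq_one_iff (hζ.ne_zero hm)).mp h1).1
  have hsum : (∑ t ∈ Finset.range i, ζ ^ t) ∈ A := sum_mem fun t _ => pow_mem hζA t
  have hfac : 1 - ζ ^ i = (∑ t ∈ Finset.range i, ζ ^ t) * (1 - ζ) := (geom_sum_mul_neg ζ i).symm
  rw [hfac, map_mul]
  exact mul_le_of_le_one_left' ((A.valuation_le_one_iff _).mpr hsum)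

private theorem DXi_val_pow_totient (he : e.Prime) (a : ℕ) {ζ : Qbar}
    (hζ : IsPrimitiveRoot ζ (e ^ (a + 1))) :
    A.valuation (1 - ζ) ^ (Nat.totient (e ^ (a + 1))) = A.valuation (e : Qbar) := by
  have : Fact e.Prime := ⟨he⟩
  have hm : e ^ (a + 1) ≠ 0 := pow_ne_zero _ he.ne_zero
  have : NeZero (e ^ (a + 1)) := ⟨hm⟩
  have h1 : (e : Qbar) = ∏ μ ∈ primitiveRoots (e ^ (a + 1)) Qbar, (1 - μ) := by
    have h2 := Polynomial.eval_one_cyclotomic_prime_pow (R := Qbar) (p := e) a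
    rw [Polynomial.cyclotomic_eq_prod_X_sub_primitiveRoots hζ, Polynomial.eval_prod] at h2
    rw [← h2]
    refine Finset.prod_congr rfl fun μ _ => ?_
    simp
  rw [h1, map_prod]
  rw [Finset.prod_congr rfl (g := fun _ => A.valuation (1 - ζ)), Finset.prod_const,
    hζ.card_primitiveRoots]
  intro μ hμ
  rw [mem_primitiveRoots (Nat.pos_of_ne_zero hm)] at hμ
  exact le_antisymm (DXi_val_one_sub_le hm hζ hμ.pow_eq_one) (DXi_val_one_sub_le hm hμ hζ.pow_eq_one)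

/-- (TASK D-Xi) `ξ` is ramified at `e`: a power `ξ ^ j` fixed by the inertia group has `e ∣ j`.
[If `e ∤ j`, `ξ^j` is a primitive root of unity of order `e ≥ 3` resp. `4`; `v(1 - ξ^j)^φ = v(e)`, `φ = e - 1` resp. `2`
(`S55.Places.nrm_one_sub_zeta` for `padicPlace`, or directly from `∏ (1 - ζ^i) = e`); `val_L0`, `val_zpow_inj`: `φ k = 1`.] -/
theorem dvd_of_xi_pow_fixed (he : e.Prime) (hA : A.LiesOverPrime e) {ξ : Qbar}
    (hξ : IsPrimitiveRoot ξ (xiOrd e)) (j : ℕ) (h : ∀ σ ∈ A.inertiaSubgroupIn ℚ, σ (ξ ^ j) = ξ ^ j) :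
    e ∣ j := by
  by_contra hj
  obtain ⟨a, ha, htot⟩ : ∃ a : ℕ, xiOrd e = e ^ (a + 1) ∧ 2 ≤ Nat.totient (e ^ (a + 1)) := by
    by_cases h2 : e = 2
    · refine ⟨1, ?_, ?_⟩
      · rw [xiOrd, if_pos h2, h2]; norm_num
      · rw [h2]; decide
    · refine ⟨0, ?_, ?_⟩
      · rw [xiOrd, if_neg h2, zero_add, pow_one]
      · rw [zero_add, pow_one, Nat.totient_prime he]
        have := he.two_le
        omega
  rw [ha] at hξ
  have hcop : Nat.Coprime j (e ^ (a + 1)) :=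
    Nat.Coprime.pow_right _ ((Nat.Prime.coprime_iff_not_dvd he).mpr hj).symm
  have hζ : IsPrimitiveRoot (ξ ^ j) (e ^ (a + 1)) := hξ.pow_of_coprime j hcop
  set ζ := ξ ^ j with hζdef
  have hm2 : 2 ≤ e ^ (a + 1) := by
    calc 2 ≤ e := he.two_le
      _ = e ^ 1 := (pow_one e).symm
      _ ≤ e ^ (a + 1) := Nat.pow_le_pow_right he.pos (by omega)
  have hne : (1 : Qbar) - ζ ≠ 0 := by
    intro h0
    exact hζ.ne_one (by omega) (sub_eq_zero.mp h0).symm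
  have hL0 : (1 : Qbar) - ζ ∈ L0 A := by
    rw [mem_L0_iff]
    intro σ hσ
    rw [map_sub, map_one, h σ hσ]
  obtain ⟨k, hk⟩ := val_L0 he hA hL0 hne
  have h3 := DXi_val_pow_totient (A := A) he a hζ
  rw [hk, ← zpow_natCast, ← zpow_mul] at h3
  have h4 : k * ((Nat.totient (e ^ (a + 1)) : ℕ) : ℤ) = 1 :=
    val_zpow_inj he hA (h3.trans (zpow_one _).symm)
  have h5 : ((Nat.totient (e ^ (a + 1)) : ℕ) : ℤ) ∣ 1 := Dvd.intro_left k h4
  have h6 : Nat.totient (e ^ (a + 1)) ∣ 1 := by exact_mod_cast h5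
  have := Nat.le_of_dvd one_pos h6
  omega

/-- (TASK D-Xi) for odd `e` the cyclotomic character is non trivial on the inertia group at `e`. -/
theorem exists_inertia_chi_ne_one (he : e.Prime) (h2 : e ≠ 2) (hA : A.LiesOverPrime e)
    {χ : GQ → ZMod e} (hχ : IsCyc e χ) : ∃ τ ∈ A.inertiaSubgroupIn ℚ, χ τ ≠ 1 := by
  by_contra hcon
  push Not at hcon
  have : NeZero e := ⟨he.ne_zero⟩
  have : Fact (1 < e) := ⟨he.one_lt⟩
  obtain ⟨ξ, hξ⟩ := cyclo_exists_primitiveRoot e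
  have hξ' : IsPrimitiveRoot ξ (xiOrd e) := by rwa [xiOrd, if_neg h2]
  have h1 : e ∣ 1 := by
    refine dvd_of_xi_pow_fixed he hA hξ' 1 fun σ hσ => ?_
    rw [pow_one, hχ σ ξ hξ.pow_eq_one, hcon σ hσ, ZMod.val_one, pow_one]
  exact he.one_lt.ne' (Nat.dvd_one.mp h1)

/-- the cyclotomic character of the Prelude satisfies `IsCyc`. -/
theorem DeepTriv_isCyc (e : ℕ) [Fact e.Prime] :
    IsCyc e (fun σ => ((ExtCitation.cycloChar e σ : (ZMod e)ˣ) : ZMod e)) := by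
  intro σ ζ hζ
  have h0 : ζ ≠ 0 := by
    rintro rfl
    simp [(Fact.out : e.Prime).ne_zero] at hζ
  exact Fermat.Agent.S55.cycloChar_spec e σ (Units.mk0 ζ h0) (by
    apply Units.ext
    simpa using hζ)

/-- Kummer: `s z = η z` with `η ∈ μ_e`. -/
theorem DeepTriv_exists_root {s : GQ} {z : Qbar} (hz : z ≠ 0) (h : s (z ^ e) = z ^ e) :
    ∃ η : Qbar, η ^ e = 1 ∧ s z = η * z := by
  refine ⟨s z / z, ?_, (div_mul_cancel₀ _ hz).symm⟩
  rw [div_pow, ← map_pow, h, div_self (pow_ne_zero _ hz)]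

theorem DeepTriv_pow_apply {t : GQ} {z ζ : Qbar} (hζ : t ζ = ζ) (hz : t z = ζ * z) (n : ℕ) :
    (t ^ n) z = ζ ^ n * z := by
  induction n with
  | zero => simp
  | succ n ih =>
    rw [pow_succ', AlgEquiv.mul_apply, ih, map_mul, map_pow, hζ, hz]
    ring

/-- the commutator trick. -/
theorem DeepTriv_comm {t τ : GQ} (ht : ∀ ζ : Qbar, ζ ^ e = 1 → t ζ = ζ) {a : ℕ}
    (hτ : ∀ ζ : Qbar, ζ ^ e = 1 → τ ζ = ζ ^ a) {z : Qbar}
    (htz : t (z ^ e) = z ^ e) (hτz : τ (z ^ e) = z ^ e) :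
    ((t ^ a)⁻¹ * τ * t * τ⁻¹) z = z := by
  rcases eq_or_ne z 0 with rfl | hz
  · exact map_zero _
  have hτz' : τ⁻¹ (z ^ e) = z ^ e := by
    conv_lhs => rw [← hτz]
    exact AlgEquiv.symm_apply_apply τ _
  obtain ⟨η, hη, h1⟩ := DeepTriv_exists_root hz hτz'
  obtain ⟨ζ, hζ, h2⟩ := DeepTriv_exists_root hz htz
  have h3 : τ (η * z) = z := by
    rw [← h1]
    exact AlgEquiv.apply_symm_apply τ z
  have h4 : τ (t (τ⁻¹ z)) = (t ^ a) z := by
    rw [DeepTriv_pow_apply (ht ζ hζ) h2, h1, map_mul, ht η hη, h2,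
      show η * (ζ * z) = ζ * (η * z) by ring, map_mul, h3, hτ ζ hζ]
  rw [AlgEquiv.mul_apply, AlgEquiv.mul_apply, AlgEquiv.mul_apply, h4]
  exact AlgEquiv.symm_apply_apply (t ^ a) z

/-- (TASK D-DeepTriv) `e` odd: a homomorphism `GQ → ZMod e` killing `I''` kills `I_A`.
[`t ∈ I' = I_A ∩ ker χ`, `τ ∈ I_A`, `a = (χ τ).val`: `(t^a)⁻¹ τ t τ⁻¹ ∈ I''` (for `z ∈ unitRoots`: `τ⁻¹ z = η z`, `t z = ζ_t z`, so
`τ t τ⁻¹ z = ζ_t^a z = t^a z`).  So `(χ τ - 1) c t = 0`; `exists_inertia_chi_ne_one` gives `c t = 0`.  For `σ ∈ I_A`: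
`σ^(e-1) ∈ I'`, so `(e-1) c σ = 0`.] -/
theorem hom_inertia_eq_zero_of_deep (he : e.Prime) (h2 : e ≠ 2) (hA : A.LiesOverPrime e)
    (c : GQ → ZMod e) (hadd : ∀ σ τ, c (σ * τ) = c σ + c τ)
    (hdeep : ∀ t ∈ deepInertia e A, c t = 0) : ∀ σ ∈ A.inertiaSubgroupIn ℚ, c σ = 0 := by
  have : Fact e.Prime := ⟨he⟩
  have c1 : c 1 = 0 := by
    have := hadd 1 1
    simpa using this
  have cinv : ∀ x, c x⁻¹ = - c x := by
    intro x
    have := hadd x x⁻¹
    rw [mul_inv_cancel, c1] at this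
    linear_combination -this
  have cpow : ∀ x (n : ℕ), c (x ^ n) = n * c x := by
    intro x n
    induction n with
    | zero => simp [c1]
    | succ n ih =>
      rw [pow_succ, hadd, ih]
      push_cast
      ring
  set χ : GQ → ZMod e := fun σ => ((ExtCitation.cycloChar e σ : (ZMod e)ˣ) : ZMod e) with hχdef
  have hχ : IsCyc e χ := DeepTriv_isCyc e
  obtain ⟨τ, hτ, hτ1⟩ := exists_inertia_chi_ne_one he h2 hA hχ
  -- `c` kills `I'`
  have hI' : ∀ t ∈ A.inertiaSubgroupIn ℚ, (∀ ζ : Qbar, ζ ^ e = 1 → t ζ = ζ) → c t = 0 := by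
    intro t ht htζ
    have hu : (t ^ (χ τ).val)⁻¹ * τ * t * τ⁻¹ ∈ deepInertia e A := by
      refine ⟨Subgroup.mul_mem _ (Subgroup.mul_mem _ (Subgroup.mul_mem _
        (Subgroup.inv_mem _ (Subgroup.pow_mem _ ht _)) hτ) ht) (Subgroup.inv_mem _ hτ), ?_⟩
      intro z hz
      exact DeepTriv_comm htζ (hχ τ) (hz.2.2 t ht) (hz.2.2 τ hτ)
    have h3 := hdeep _ hu
    rw [hadd, hadd, hadd, cinv, cinv, cpow, ZMod.natCast_zmod_val] at h3
    have h4 : (1 - χ τ) * c t = 0 := by linear_combination h3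
    rcases mul_eq_zero.1 h4 with h5 | h5
    · exact absurd (sub_eq_zero.1 h5).symm hτ1
    · exact h5
  intro σ hσ
  have h5 : c (σ ^ (e - 1)) = 0 := by
    refine hI' _ (Subgroup.pow_mem _ hσ _) fun ζ hζ => ?_
    have h6 : χ (σ ^ (e - 1)) = 1 := by
      simp only [hχdef]
      rw [map_pow, ZMod.units_pow_card_sub_one_eq_one]
      rfl
    have : Fact (1 < e) := ⟨he.one_lt⟩
    rw [hχ _ ζ hζ, h6, ZMod.val_one, pow_one]
  rw [cpow, Nat.cast_sub he.one_lt.le, ZMod.natCast_self] at h5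
  simpa using h5

end Fermat.Agent.S15.D
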