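import Fermat.Agent.S36.Base.Inertia
import Fermat.Agent.S55.B.Kum
import Fermat.Agent.S55.Places.Cyclo
import Fermat.Agent.S13.Minkowski
import Fermat.Agent.S17.H.Ram

/-!
# S15 / Part D (cocycle devissage) : definitions

`e ≠ N` primes, `Ae`, `AN` valuation subrings of `Qbar` over `e`, `N`.
* `IsCyc e χ`        : `χ : GQ → ZMod e` is the mod `e` cyclotomic character;
* `unitRoots e A`    : the `z` with `z ^ e` a unit of `A` fixed by the inertia group `I_A`;
* `deepInertia e A`  : `I'' = {t ∈ I_A : t z = z for all z ∈ unitRoots e A}`;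
* `IsSel`, `Sel`     : the Selmer COCYCLES (not classes) with values in a subgroup `G` of an ambient group `J`:
  trivial on an open subgroup, `c(I_A) = 0` for `A ∣ l ≠ e, N`, `c(I_Ae) ⊆ G0`, `c(I'') = 0`, `c(I_AN) ⊆ TT`;
* `IsEisStep`        : `F₁ ≤ F₂`, `F₂ / F₁ ↪ ZMod e` on which Galois acts by `1` or by `χ`.

Main results of Part D (files `Main.lean`, `Filtration.lean`):
`card_sel_le : #Sel(G) ≤ #(G0 ⊓ G) * #(TT ⊓ G)` for `G` filtered by Eisenstein steps, and the existence of such a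
filtration if `(σ - 1)(σ - χ σ)` is nilpotent on `G` for all `σ`.
-/

set_option autoImplicit false

open scoped Pointwise

namespace Fermat.Agent.S15.D

noncomputable section

open Fermat.Agent.S55.Places

/-- `χ` is the mod `e` cyclotomic character. -/
def IsCyc (e : ℕ) (χ : GQ → ZMod e) : Prop :=
  ∀ (σ : GQ) (ζ : Qbar), ζ ^ e = 1 → σ ζ = ζ ^ (χ σ).val

/-- `e`-th roots of units of `A` which are fixed by the inertia group of `A`. -/
def unitRoots (e : ℕ) (A : ValuationSubring Qbar) : Set Qbar :=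
  {z | z ^ e ∈ A ∧ (z ^ e)⁻¹ ∈ A ∧ ∀ σ ∈ A.inertiaSubgroupIn ℚ, σ (z ^ e) = z ^ e}

/-- `I''`: the elements of the inertia group fixing all `e`-th roots of inertia-invariant units. -/
def deepInertia (e : ℕ) (A : ValuationSubring Qbar) : Subgroup GQ where
  carrier := {t | t ∈ A.inertiaSubgroupIn ℚ ∧ ∀ z ∈ unitRoots e A, t z = z}
  one_mem' := ⟨Subgroup.one_mem _, fun _ _ => rfl⟩
  mul_mem' := by
    rintro a b ⟨ha, ha'⟩ ⟨hb, hb'⟩
    refine ⟨Subgroup.mul_mem _ ha hb, fun z hz => ?_⟩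
    rw [AlgEquiv.mul_apply, hb' z hz, ha' z hz]
  inv_mem' := by
    rintro a ⟨ha, ha'⟩
    refine ⟨Subgroup.inv_mem _ ha, fun z hz => ?_⟩
    conv_lhs => rw [← ha' z hz]
    exact AlgEquiv.symm_apply_apply a z

theorem mem_deepInertia {e : ℕ} {A : ValuationSubring Qbar} {t : GQ} :
    t ∈ deepInertia e A ↔ t ∈ A.inertiaSubgroupIn ℚ ∧ ∀ z ∈ unitRoots e A, t z = z := Iff.rfl

variable {J : Type*} [AddCommGroup J]

/-- Selmer cocycles. -/
structure IsSel (e N : ℕ) (Ae AN : ValuationSubring Qbar) (act : GQ → J →+ J)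
    (G G0 TT : AddSubgroup J) (c : GQ → J) : Prop where
  vals : ∀ σ, c σ ∈ G
  cocycle : ∀ σ τ, c (σ * τ) = c σ + act σ (c τ)
  cont : ∃ L : NF, FiniteDimensional ℚ L ∧ ∀ σ ∈ L.fixingSubgroup, c σ = 0
  unram : ∀ l : ℕ, l.Prime → l ≠ e → l ≠ N → ∀ A : ValuationSubring Qbar, A.LiesOverPrime l →
    ∀ σ ∈ A.inertiaSubgroupIn ℚ, c σ = 0
  at_e : ∀ σ ∈ Ae.inertiaSubgroupIn ℚ, c σ ∈ G0
  deep : ∀ σ ∈ deepInertia e Ae, c σ = 0
  at_N : ∀ σ ∈ AN.inertiaSubgroupIn ℚ, c σ ∈ TT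

/-- the group of Selmer cocycles. -/
def Sel (e N : ℕ) (Ae AN : ValuationSubring Qbar) (act : GQ → J →+ J)
    (G G0 TT : AddSubgroup J) : AddSubgroup (GQ → J) where
  carrier := {c | IsSel e N Ae AN act G G0 TT c}
  zero_mem' :=
    { vals := fun _ => G.zero_mem
      cocycle := fun σ τ => by simp
      cont := ⟨⊥, inferInstance, fun _ _ => rfl⟩
      unram := fun _ _ _ _ _ _ _ _ => rfl
      at_e := fun _ _ => G0.zero_mem
      deep := fun _ _ => rfl
      at_N := fun _ _ => TT.zero_mem }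
  add_mem' := by
    intro a b ha hb
    obtain ⟨L, hL, hL'⟩ := ha.cont
    obtain ⟨M, hM, hM'⟩ := hb.cont
    exact
    { vals := fun σ => G.add_mem (ha.vals σ) (hb.vals σ)
      cocycle := fun σ τ => by
        simp only [Pi.add_apply, ha.cocycle, hb.cocycle, map_add]
        abel
      cont := ⟨L ⊔ M, IntermediateField.finiteDimensional_sup L M, fun σ hσ => by
        rw [IntermediateField.fixingSubgroup_sup] at hσ
        simp only [Pi.add_apply, hL' σ hσ.1, hM' σ hσ.2, add_zero]⟩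
      unram := fun l hl h1 h2 A hA σ hσ => by
        simp only [Pi.add_apply, ha.unram l hl h1 h2 A hA σ hσ, hb.unram l hl h1 h2 A hA σ hσ,
          add_zero]
      at_e := fun σ hσ => G0.add_mem (ha.at_e σ hσ) (hb.at_e σ hσ)
      deep := fun σ hσ => by simp only [Pi.add_apply, ha.deep σ hσ, hb.deep σ hσ, add_zero]
      at_N := fun σ hσ => TT.add_mem (ha.at_N σ hσ) (hb.at_N σ hσ) }
  neg_mem' := by
    intro a ha
    obtain ⟨L, hL, hL'⟩ := ha.cont
    exact
    { vals := fun σ => G.neg_mem (ha.vals σ)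
      cocycle := fun σ τ => by
        simp only [Pi.neg_apply, ha.cocycle, map_neg]
        abel
      cont := ⟨L, hL, fun σ hσ => by simp only [Pi.neg_apply, hL' σ hσ, neg_zero]⟩
      unram := fun l hl h1 h2 A hA σ hσ => by
        simp only [Pi.neg_apply, ha.unram l hl h1 h2 A hA σ hσ, neg_zero]
      at_e := fun σ hσ => G0.neg_mem (ha.at_e σ hσ)
      deep := fun σ hσ => by simp only [Pi.neg_apply, ha.deep σ hσ, neg_zero]
      at_N := fun σ hσ => TT.neg_mem (ha.at_N σ hσ) }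

theorem mem_Sel {e N : ℕ} {Ae AN : ValuationSubring Qbar} {act : GQ → J →+ J}
    {G G0 TT : AddSubgroup J} {c : GQ → J} :
    c ∈ Sel e N Ae AN act G G0 TT ↔ IsSel e N Ae AN act G G0 TT c := Iff.rfl

/-- the action of `GQ` on `ZMod e` through a function `ψ` (`ψ = 1` or `ψ = χ`). -/
def mulAct (e : ℕ) (ψ : GQ → ZMod e) : GQ → ZMod e →+ ZMod e := fun σ => AddMonoidHom.mulLeft (ψ σ)

@[simp] theorem mulAct_apply (e : ℕ) (ψ : GQ → ZMod e) (σ : GQ) (x : ZMod e) :
    mulAct e ψ σ x = ψ σ * x := rfl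

/-- the action attached to a `DistribMulAction`. -/
def smulAct (J : Type*) [AddCommGroup J] [DistribMulAction GQ J] : GQ → J →+ J :=
  fun σ => DistribSMul.toAddMonoidHom J σ

@[simp] theorem smulAct_apply [DistribMulAction GQ J] (σ : GQ) (x : J) : smulAct J σ x = σ • x := rfl

/-- One step of an Eisenstein filtration: `F₂ / F₁ ↪ ZMod e` with action `1` or `χ`. -/
structure IsEisStep (e : ℕ) (χ : GQ → ZMod e) (act : GQ → J →+ J) (F₁ F₂ : AddSubgroup J) : Prop where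
  le : F₁ ≤ F₂
  stable : ∀ (σ : GQ), ∀ x ∈ F₂, act σ x ∈ F₂
  exists_pi : ∃ (π : J → ZMod e) (ψ : GQ → ZMod e), ((∀ σ, ψ σ = 1) ∨ ψ = χ) ∧
    (∀ x ∈ F₂, ∀ y ∈ F₂, π (x + y) = π x + π y) ∧ (∀ x ∈ F₂, π x = 0 ↔ x ∈ F₁) ∧
    ∀ (σ : GQ), ∀ x ∈ F₂, π (act σ x) = ψ σ * π x

/-- the operator `(σ - 1)(σ - χ σ)`. -/
def eisOp {e : ℕ} (χ : GQ → ZMod e) [DistribMulAction GQ J] (σ : GQ) (x : J) : J :=
  σ • σ • x - (1 + (χ σ).val) • σ • x + (χ σ).val • x

end

end Fermat.Agent.S15.D
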