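import Fermat.Agent.S15.D.Base

/-!
# S15 / D : the devissage    (TASKS S15/D-StepCard, S15/D-StepSel, S15/D-Chain)

`Z^1` is trivially subadditive: for one Eisenstein step `F₁ ≤ F₂`, `π : F₂ / F₁ ↪ ZMod e`,
`c ↦ π ∘ c` maps `Sel(F₂)` to `Sel(ZMod e)` (conditions `π(G0 ⊓ F₂)`, `π(TT ⊓ F₂)`) with kernel `Sel(F₁)`.
-/

set_option autoImplicit false

namespace Fermat.Agent.S15.D

open Fermat.Agent.S55 Fermat.Agent.S55.Places

variable {J : Type*} [AddCommGroup J] {e N : ℕ} {Ae AN : ValuationSubring Qbar}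
  {act : GQ → J →+ J}

/-- the image `π (H ⊓ F₂)` as a subgroup of `ZMod e` (`π` is additive on `F₂`, so the closure is the image). -/
def piIm (π : J → ZMod e) (H F₂ : AddSubgroup J) : AddSubgroup (ZMod e) :=
  AddSubgroup.closure (π '' ((H ⊓ F₂ : AddSubgroup J) : Set J))

/-- (D-StepCard, helper) `π` as a homomorphism on a subgroup of `F₂`. -/
noncomputable def StepCard_hom {F₂ : AddSubgroup J} (π : J → ZMod e)
    (hadd : ∀ x ∈ F₂, ∀ y ∈ F₂, π (x + y) = π x + π y) (A : AddSubgroup J) (hA : A ≤ F₂) :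
    A →+ ZMod e :=
  AddMonoidHom.mk' (fun x => π (x : J)) fun x y => hadd _ (hA x.2) _ (hA y.2)

/-- (D-StepCard, helper) the kernel. -/
noncomputable def StepCard_kerEquiv {F₁ F₂ : AddSubgroup J} (π : J → ZMod e)
    (hadd : ∀ x ∈ F₂, ∀ y ∈ F₂, π (x + y) = π x + π y) (hker : ∀ x ∈ F₂, π x = 0 ↔ x ∈ F₁)
    (A : AddSubgroup J) (hA : A ≤ F₂) :
    (StepCard_hom π hadd A hA).ker ≃ ↥(A ⊓ F₁) where
  toFun x := ⟨((x : A) : J), (x : A).2, (hker _ (hA (x : A).2)).1 x.2⟩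
  invFun x := ⟨⟨(x : J), x.2.1⟩, (hker _ (hA x.2.1)).2 x.2.2⟩
  left_inv _ := rfl
  right_inv _ := rfl

/-- (D-StepCard, helper) `#A = #(A ⊓ F₁) * #π(A)`. -/
theorem StepCard_card {F₁ F₂ : AddSubgroup J} (π : J → ZMod e)
    (hadd : ∀ x ∈ F₂, ∀ y ∈ F₂, π (x + y) = π x + π y) (hker : ∀ x ∈ F₂, π x = 0 ↔ x ∈ F₁)
    (A : AddSubgroup J) (hA : A ≤ F₂) :
    Nat.card A = Nat.card ↥(A ⊓ F₁) * Nat.card (StepCard_hom π hadd A hA).range := by
  rw [AddSubgroup.card_eq_card_quotient_mul_card_addSubgroup (StepCard_hom π hadd A hA).ker,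
    Nat.card_congr (QuotientAddGroup.quotientKerEquivRange (StepCard_hom π hadd A hA)).toEquiv,
    Nat.card_congr (StepCard_kerEquiv π hadd hker A hA), mul_comm]

/-- (D-StepCard) -/
theorem finite_of_step [NeZero e] {F₁ F₂ : AddSubgroup J} [Finite F₁] (π : J → ZMod e)
    (hadd : ∀ x ∈ F₂, ∀ y ∈ F₂, π (x + y) = π x + π y) (hker : ∀ x ∈ F₂, π x = 0 ↔ x ∈ F₁) :
    Finite F₂ := by
  have h1 := StepCard_card π hadd hker F₂ le_rfl
  have hfin : Finite ↥(F₂ ⊓ F₁) :=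
    Finite.of_injective (fun x : ↥(F₂ ⊓ F₁) => (⟨(x : J), x.2.2⟩ : F₁)) (by
      intro x y hxy
      exact Subtype.ext (congrArg (fun z : F₁ => (z : J)) hxy))
  apply Nat.finite_of_card_ne_zero
  rw [h1]
  exact mul_ne_zero Nat.card_pos.ne' Nat.card_pos.ne'

/-- (D-StepCard) `#(H ⊓ F₂) = #(H ⊓ F₁) * #π(H ⊓ F₂)`. -/
theorem card_inf_step [NeZero e] {F₁ F₂ : AddSubgroup J} [Finite F₂] (hle : F₁ ≤ F₂) (π : J → ZMod e)
    (hadd : ∀ x ∈ F₂, ∀ y ∈ F₂, π (x + y) = π x + π y) (hker : ∀ x ∈ F₂, π x = 0 ↔ x ∈ F₁)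
    (H : AddSubgroup J) :
    Nat.card ↥(H ⊓ F₂) = Nat.card ↥(H ⊓ F₁) * Nat.card ↥(piIm π H F₂) := by
  have h1 := StepCard_card π hadd hker (H ⊓ F₂) inf_le_right
  have h2 : H ⊓ F₂ ⊓ F₁ = H ⊓ F₁ := by rw [inf_assoc, inf_eq_right.2 hle]
  have h3 : (StepCard_hom π hadd (H ⊓ F₂) inf_le_right).range = piIm π H F₂ := by
    apply le_antisymm
    · rintro _ ⟨x, rfl⟩
      exact AddSubgroup.subset_closure ⟨(x : J), x.2, rfl⟩
    · rw [piIm, AddSubgroup.closure_le]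
      rintro _ ⟨x, hx, rfl⟩
      exact ⟨⟨x, hx⟩, rfl⟩
  rw [h1, h2, h3]

private theorem StepSel_pi_zero {F₂ : AddSubgroup J} (π : J → ZMod e)
    (hadd : ∀ x ∈ F₂, ∀ y ∈ F₂, π (x + y) = π x + π y) : π 0 = 0 := by
  have h := hadd 0 F₂.zero_mem 0 F₂.zero_mem
  rw [add_zero] at h
  exact left_eq_add.mp h

/-- (D-StepSel) `π ∘ c` is a Selmer cocycle. -/
theorem isSel_comp {F₁ F₂ : AddSubgroup J} (π : J → ZMod e) (ψ : GQ → ZMod e)
    (hadd : ∀ x ∈ F₂, ∀ y ∈ F₂, π (x + y) = π x + π y)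
    (hstab : ∀ (σ : GQ), ∀ x ∈ F₂, act σ x ∈ F₂)
    (hequiv : ∀ (σ : GQ), ∀ x ∈ F₂, π (act σ x) = ψ σ * π x) (G0 TT : AddSubgroup J)
    {c : GQ → J} (hc : IsSel e N Ae AN act F₂ G0 TT c) :
    IsSel e N Ae AN (mulAct e ψ) ⊤ (piIm π G0 F₂) (piIm π TT F₂) (fun σ => π (c σ)) := by
  have h0 := StepSel_pi_zero π hadd
  obtain ⟨L, hL, hL'⟩ := hc.cont
  exact
  { vals := fun _ => AddSubgroup.mem_top _
    cocycle := fun σ τ => by
      simp only [mulAct_apply]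
      rw [hc.cocycle, hadd _ (hc.vals σ) _ (hstab σ _ (hc.vals τ)), hequiv σ _ (hc.vals τ)]
    cont := ⟨L, hL, fun σ hσ => by simp only [hL' σ hσ, h0]⟩
    unram := fun l hl h1 h2 A hA σ hσ => by simp only [hc.unram l hl h1 h2 A hA σ hσ, h0]
    at_e := fun σ hσ => AddSubgroup.subset_closure ⟨c σ, ⟨hc.at_e σ hσ, hc.vals σ⟩, rfl⟩
    deep := fun σ hσ => by simp only [hc.deep σ hσ, h0]
    at_N := fun σ hσ => AddSubgroup.subset_closure ⟨c σ, ⟨hc.at_N σ hσ, hc.vals σ⟩, rfl⟩ }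

/-- (D-StepSel) `#Sel(F₂) ≤ #Sel(F₁) * #Sel(ZMod e)`.
[`Φ : Sel(F₂) →+ Sel(ZMod e)`, `c ↦ π ∘ c` (`isSel_comp`), `ker Φ ≃ Sel(F₁)`; `AddSubgroup.card_eq_card_quotient_mul_card_addSubgroup` or
`Nat.card` of fibres.] -/
theorem card_sel_step_le {F₁ F₂ : AddSubgroup J} (hle : F₁ ≤ F₂) (π : J → ZMod e) (ψ : GQ → ZMod e)
    (hadd : ∀ x ∈ F₂, ∀ y ∈ F₂, π (x + y) = π x + π y) (hker : ∀ x ∈ F₂, π x = 0 ↔ x ∈ F₁)
    (hstab : ∀ (σ : GQ), ∀ x ∈ F₂, act σ x ∈ F₂)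
    (hequiv : ∀ (σ : GQ), ∀ x ∈ F₂, π (act σ x) = ψ σ * π x) (G0 TT : AddSubgroup J)
    (h1 : Finite (Sel e N Ae AN act F₁ G0 TT))
    (h2 : Finite (Sel e N Ae AN (mulAct e ψ) ⊤ (piIm π G0 F₂) (piIm π TT F₂))) :
    Finite (Sel e N Ae AN act F₂ G0 TT) ∧
      Nat.card (Sel e N Ae AN act F₂ G0 TT) ≤ Nat.card (Sel e N Ae AN act F₁ G0 TT) *
        Nat.card (Sel e N Ae AN (mulAct e ψ) ⊤ (piIm π G0 F₂) (piIm π TT F₂)) := by
  have h0 := StepSel_pi_zero π hadd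
  let Φ : Sel e N Ae AN act F₂ G0 TT →+
      Sel e N Ae AN (mulAct e ψ) ⊤ (piIm π G0 F₂) (piIm π TT F₂) :=
    { toFun := fun c => ⟨fun σ => π (c.1 σ),
        mem_Sel.mpr (isSel_comp (F₁ := F₁) π ψ hadd hstab hequiv G0 TT (mem_Sel.mp c.2))⟩
      map_zero' := by
        apply Subtype.ext
        funext σ
        exact h0
      map_add' := fun a b => by
        apply Subtype.ext
        funext σ
        exact hadd _ ((mem_Sel.mp a.2).vals σ) _ ((mem_Sel.mp b.2).vals σ) }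
  let j : Φ.ker → Sel e N Ae AN act F₁ G0 TT := fun c => ⟨c.1.1, mem_Sel.mpr
    { vals := fun σ => by
        have hc := (mem_Sel.mp c.1.2)
        have h3 : Φ c.1 = 0 := c.2
        have h4 : π (c.1.1 σ) = 0 := congrFun (congrArg Subtype.val h3) σ
        exact (hker _ (hc.vals σ)).mp h4
      cocycle := (mem_Sel.mp c.1.2).cocycle
      cont := (mem_Sel.mp c.1.2).cont
      unram := (mem_Sel.mp c.1.2).unram
      at_e := (mem_Sel.mp c.1.2).at_e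
      deep := (mem_Sel.mp c.1.2).deep
      at_N := (mem_Sel.mp c.1.2).at_N }⟩
  have hj : Function.Injective j := by
    intro a b hab
    apply Subtype.ext
    apply Subtype.ext
    exact congrArg (fun x : Sel e N Ae AN act F₁ G0 TT => (x : GQ → J)) hab
  have hfk : Finite Φ.ker := Finite.of_injective j hj
  have hfr : Finite Φ.range := inferInstance
  have hfq : Finite (Sel e N Ae AN act F₂ G0 TT ⧸ Φ.ker) :=
    Finite.of_equiv _ (QuotientAddGroup.quotientKerEquivRange Φ).symm.toEquiv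
  have hfin : Finite (Sel e N Ae AN act F₂ G0 TT) :=
    Finite.of_equiv _ (AddSubgroup.addGroupEquivQuotientProdAddSubgroup (s := Φ.ker)).symm
  refine ⟨hfin, ?_⟩
  rw [AddSubgroup.card_eq_card_quotient_mul_card_addSubgroup Φ.ker, mul_comm]
  refine Nat.mul_le_mul (Nat.card_le_card_of_injective j hj) ?_
  rw [Nat.card_congr (QuotientAddGroup.quotientKerEquivRange Φ).toEquiv]
  exact Nat.card_le_card_of_injective _ Subtype.val_injective

/-- (D-Chain helper) the strengthened induction statement. -/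
theorem chain_card_sel_le_aux [Fact e.Prime] (hN : N.Prime) (heN : e ≠ N) (hAe : Ae.LiesOverPrime e)
    (hAN : AN.LiesOverPrime N) {χ : GQ → ZMod e} (hχ : IsCyc e χ)
    (F : ℕ → AddSubgroup J) (hF0 : F 0 = ⊥) (G0 TT : AddSubgroup J) (m : ℕ)
    (hF : ∀ i < m, IsEisStep e χ act (F i) (F (i + 1))) :
    Finite (F m) ∧ Finite (Sel e N Ae AN act (F m) G0 TT) ∧
      Nat.card (Sel e N Ae AN act (F m) G0 TT) ≤ Nat.card ↥(G0 ⊓ F m) * Nat.card ↥(TT ⊓ F m) := by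
  induction m with
  | zero =>
    have hbot : Sel e N Ae AN act (F 0) G0 TT = ⊥ := by
      rw [eq_bot_iff]
      intro c hc
      rw [AddSubgroup.mem_bot]
      funext σ
      have := (mem_Sel.mp hc).vals σ
      rw [hF0, AddSubgroup.mem_bot] at this
      exact this
    rw [hbot, hF0]
    refine ⟨inferInstance, inferInstance, ?_⟩
    simp
  | succ m ih =>
    obtain ⟨hfin, hfinS, hle⟩ := ih (fun i hi => hF i (Nat.lt_succ_of_lt hi))
    have hstep := hF m (Nat.lt_succ_self m)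
    obtain ⟨π, ψ, hψ, hadd, hker, hequiv⟩ := hstep.exists_pi
    have hfin2 : Finite (F (m + 1)) := finite_of_step π hadd hker
    obtain ⟨hb1, hb2⟩ := base_card_le (Ae := Ae) (AN := AN) hN heN hAe hAN hχ ψ hψ
      (piIm π G0 (F (m + 1))) (piIm π TT (F (m + 1)))
    obtain ⟨hs1, hs2⟩ := card_sel_step_le (Ae := Ae) (AN := AN) (N := N) hstep.le π ψ hadd hker
      hstep.stable hequiv G0 TT hfinS hb1
    refine ⟨hfin2, hs1, hs2.trans ?_⟩
    rw [card_inf_step hstep.le π hadd hker G0, card_inf_step hstep.le π hadd hker TT]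
    calc _ ≤ (Nat.card ↥(G0 ⊓ F m) * Nat.card ↥(TT ⊓ F m)) *
          (Nat.card ↥(piIm π G0 (F (m + 1))) * Nat.card ↥(piIm π TT (F (m + 1)))) :=
          Nat.mul_le_mul hle hb2
      _ = _ := by ring

/-- (D-Chain) **(D1)**: the bound for a group with an Eisenstein filtration.
[Induction on `m`: `Finite (F m)`, `Finite Sel`, and the inequality; step = `card_sel_step_le` + `base_card_le` + `card_inf_step` for `G0` and `TT`.
`m = 0`: `F 0 = ⊥`, so `Sel = ⊥`.] -/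
theorem card_sel_le [Fact e.Prime] (hN : N.Prime) (heN : e ≠ N) (hAe : Ae.LiesOverPrime e)
    (hAN : AN.LiesOverPrime N) {χ : GQ → ZMod e} (hχ : IsCyc e χ)
    (F : ℕ → AddSubgroup J) (m : ℕ) (hF0 : F 0 = ⊥)
    (hF : ∀ i < m, IsEisStep e χ act (F i) (F (i + 1))) (G0 TT : AddSubgroup J) :
    Finite (Sel e N Ae AN act (F m) G0 TT) ∧
      Nat.card (Sel e N Ae AN act (F m) G0 TT) ≤ Nat.card ↥(G0 ⊓ F m) * Nat.card ↥(TT ⊓ F m) := by
  exact (chain_card_sel_le_aux hN heN hAe hAN hχ F hF0 G0 TT m hF).2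

end Fermat.Agent.S15.D
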