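import Fermat.Agent.S15.D.Cyc

/-!
# S15 / D : existence of Eisenstein filtrations     (TASKS S15/D-Eigen, S15/D-FilStep, S15/D-FilChain)
-/

set_option autoImplicit false

namespace Fermat.Agent.S15.D

open Fermat.Agent.S55.Places

/-- `a • v` only depends on `a mod e`. -/
theorem DEigen_nsmul_congr {V : Type*} [AddCommGroup V] {e : ℕ} {v : V} (hv : e • v = 0) {a b : ℕ}
    (hab : (a : ZMod e) = (b : ZMod e)) : a • v = b • v := by
  have key : ∀ a : ℕ, a • v = (a % e) • v := by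
    intro a
    conv_lhs => rw [← Nat.mod_add_div a e, add_nsmul, mul_nsmul, hv, smul_zero, add_zero]
  have h := (ZMod.natCast_eq_natCast_iff a b e).1 hab
  rw [key a, key b, h]

/-- a unipotent operator on a group killed by `e` has `e`-power order. -/
theorem DEigen_pow_smul {Γ V : Type*} [Group Γ] [AddCommGroup V] [Nontrivial V]
    [DistribMulAction Γ V] {e : ℕ} (he : e.Prime) (hV : ∀ x : V, e • x = 0) (σ : Γ) (k : ℕ)
    (hk : ∀ x : V, (fun y : V => σ • σ • y - (1 + 1) • σ • y + 1 • y)^[k] x = 0) :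
    ∃ a : ℕ, ∀ x : V, σ ^ (e ^ a) • x = x := by
  have : Fact e.Prime := ⟨he⟩
  have : Nontrivial (AddMonoid.End V) := by
    obtain ⟨x, hx⟩ := exists_ne (0 : V)
    exact ⟨⟨1, 0, fun h => hx (congrArg (fun f : AddMonoid.End V => f x) h)⟩⟩
  have : CharP (AddMonoid.End V) e := by
    rw [CharP.charP_iff_prime_eq_zero he]
    ext x
    exact hV x
  set s : AddMonoid.End V := DistribMulAction.toAddMonoidEnd Γ V σ with hs
  have hsx : ∀ x : V, s x = σ • x := fun x => rfl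
  have hT : ∀ j : ℕ, ∀ x : V, (((s - 1) ^ 2) ^ j : AddMonoid.End V) x
      = (fun y : V => σ • σ • y - (1 + 1) • σ • y + 1 • y)^[j] x := by
    intro j
    induction j with
    | zero => intro x; rfl
    | succ j ih =>
      intro x
      rw [pow_succ, Function.iterate_succ_apply, ← ih]
      show (((s - 1) ^ 2) ^ j : AddMonoid.End V) (((s - 1) ^ 2 : AddMonoid.End V) x) = _
      congr 1
      have : (s - 1) ^ 2 = s * s - (1 + 1) • s + 1 := by
        rw [sq, sub_mul, mul_sub, add_smul, one_smul]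
        simp only [mul_one, one_mul]
        abel
      rw [this]
      show s (s x) - (1 + 1) • s x + x = _
      rw [hsx, hsx, one_smul]
  have h0 : (s - 1) ^ (2 * k) = 0 := by
    rw [pow_mul]
    ext x
    rw [hT k x, hk x]
    rfl
  have h1 : (s - 1) ^ (e ^ (2 * k)) = 0 :=
    pow_eq_zero_of_le (Nat.lt_pow_self he.one_lt).le h0
  rw [sub_pow_char_pow_of_commute _ _ (Commute.one_right s), one_pow, sub_eq_zero] at h1
  refine ⟨2 * k, fun x => ?_⟩
  have h2 : DistribMulAction.toAddMonoidEnd Γ V (σ ^ (e ^ (2 * k))) = 1 := by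
    rw [map_pow, ← hs, h1]
  exact congrArg (fun f : AddMonoid.End V => f x) h2

/-- (D-Eigen) `Γ` acts on a finite nonzero `𝔽_e`-vector space `V`, `χ : Γ → 𝔽_e^×` a character, `(σ - 1)(σ - χ σ)` nilpotent for all `σ`.
Then there is an eigenvector with character `1` or `χ`.
[(a) `H = ker χ`: `(σ-1)^(2k) = 0`, so `σ^(e^a) = 1` on `V`: the image of `H` in `Equiv.Perm V` / `AddAut V` is a finite `e`-group, so `V^H ≠ 0`
(`IsPGroup.card_modEq_card_fixedPoints`, `e ∣ #V`).  (b) `V^H` is `Γ`-stable; `σ^(e-1) ∈ H` acts trivially on it.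
(c) `χ(Γ) ≤ (ZMod e)ˣ` is cyclic: `σ₀` with `χ σ₀` a generator; every `σ = σ₀^k h`, `h ∈ H`.  On `W = V^H`: `σ₀^(e-1) = 1` and `((σ₀-1)(σ₀-χ σ₀))^k = 0`.
Take `w ≠ 0` in `W`, and the last nonzero vector `v` in the sequence `w, (σ₀-1)w, (σ₀ - χσ₀)(σ₀-1)w, (σ₀-1)(σ₀-χσ₀)(σ₀-1) w, …`: it is an eigenvector of `σ₀`
with eigenvalue `1` or `χ σ₀`.  Then `σ v = σ₀^k v = v` resp. `χ(σ₀)^k v = χ(σ) v`.] -/
theorem exists_eigenvector {Γ V : Type*} [Group Γ] [AddCommGroup V] [Finite V] [Nontrivial V]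
    [DistribMulAction Γ V] {e : ℕ} (he : e.Prime) (hV : ∀ x : V, e • x = 0) (χ : Γ →* (ZMod e)ˣ)
    (hnil : ∀ σ : Γ, ∃ k : ℕ, ∀ x : V,
      (fun y : V => σ • σ • y - (1 + ((χ σ : (ZMod e)ˣ) : ZMod e).val) • σ • y +
        ((χ σ : (ZMod e)ˣ) : ZMod e).val • y)^[k] x = 0) :
    ∃ v : V, v ≠ 0 ∧ ((∀ σ : Γ, σ • v = v) ∨
      (∀ σ : Γ, σ • v = ((χ σ : (ZMod e)ˣ) : ZMod e).val • v)) := by
  classical
  have : Fact e.Prime := ⟨he⟩
  have : Fact (1 < e) := ⟨he.one_lt⟩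
  -- (a) a nonzero vector fixed by `H = ker χ`
  have hpow : ∀ h ∈ χ.ker, ∃ a : ℕ, ∀ x : V, h ^ (e ^ a) • x = x := by
    intro h hh
    obtain ⟨k, hk⟩ := hnil h
    rw [MonoidHom.mem_ker] at hh
    rw [hh] at hk
    simp only [Units.val_one, ZMod.val_one] at hk
    exact DEigen_pow_smul he hV h k hk
  let φ : χ.ker →* Equiv.Perm V := (MulAction.toPermHom Γ V).comp χ.ker.subtype
  have hφ : ∀ (h : χ.ker) (x : V), φ h x = (h : Γ) • x := fun h x => rfl
  have hG : IsPGroup e φ.range := by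
    rintro ⟨_, ⟨h, rfl⟩⟩
    obtain ⟨a, ha⟩ := hpow h h.2
    refine ⟨a, Subtype.ext ?_⟩
    show φ h ^ (e ^ a) = 1
    rw [← map_pow]
    ext x
    rw [hφ]
    exact ha x
  have hcard : e ∣ Nat.card V := by
    obtain ⟨x, hx⟩ := exists_ne (0 : V)
    have h1 : addOrderOf x = e := by
      have h2 : addOrderOf x ∣ e := addOrderOf_dvd_of_nsmul_eq_zero (hV x)
      rcases (Nat.dvd_prime he).1 h2 with h3 | h3
      · exact absurd (AddMonoid.addOrderOf_eq_one_iff.1 h3) hx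
      · exact h3
    rw [← h1]
    exact addOrderOf_dvd_natCard x
  have h0fix : (0 : V) ∈ MulAction.fixedPoints φ.range V := by
    rintro ⟨_, ⟨h, rfl⟩⟩
    show φ h 0 = 0
    rw [hφ, smul_zero]
  obtain ⟨w, hwfix, hw0⟩ := hG.exists_fixed_point_of_prime_dvd_card_of_fixed_point V hcard h0fix
  -- `W = V^H`
  let W : AddSubgroup V :=
    { carrier := {x | ∀ h ∈ χ.ker, h • x = x}
      add_mem' := by
        intro a b ha hb h hh
        rw [smul_add, ha h hh, hb h hh]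
      zero_mem' := fun h _ => smul_zero h
      neg_mem' := by
        intro a ha h hh
        rw [smul_neg, ha h hh] }
  have hwW : w ∈ W := fun h hh => hwfix ⟨φ ⟨h, hh⟩, ⟨⟨h, hh⟩, rfl⟩⟩
  have hWstab : ∀ (σ : Γ), ∀ x ∈ W, σ • x ∈ W := by
    intro σ x hx h hh
    have h1 : σ⁻¹ * h * σ ∈ χ.ker := by
      have := (inferInstance : χ.ker.Normal).conj_mem h hh σ⁻¹
      rwa [inv_inv] at this
    have h2 : h * σ = σ * (σ⁻¹ * h * σ) := by group
    rw [← mul_smul, h2, mul_smul, hx _ h1]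
  -- (c) a generator
  obtain ⟨⟨_, ⟨σ₀, rfl⟩⟩, hgen⟩ := IsCyclic.exists_monoid_generator (α := χ.range)
  have hdec : ∀ σ : Γ, ∃ n : ℕ, χ σ = χ σ₀ ^ n ∧ (σ₀ ^ n)⁻¹ * σ ∈ χ.ker := by
    intro σ
    obtain ⟨n, hn⟩ := hgen ⟨χ σ, ⟨σ, rfl⟩⟩
    have hn' : χ σ₀ ^ n = χ σ := congrArg Subtype.val hn
    refine ⟨n, hn'.symm, ?_⟩
    rw [MonoidHom.mem_ker, map_mul, map_inv, map_pow, hn', inv_mul_cancel]
  set c : ℕ := ((χ σ₀ : (ZMod e)ˣ) : ZMod e).val with hc
  set f : V → V := fun y : V => σ₀ • σ₀ • y - (1 + c) • σ₀ • y + c • y with hf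
  have hfW : ∀ x ∈ W, f x ∈ W := fun x hx =>
    W.add_mem (W.sub_mem (hWstab _ _ (hWstab _ _ hx)) (W.nsmul_mem (hWstab _ _ hx) _))
      (W.nsmul_mem hx _)
  have hfWk : ∀ (k : ℕ), f^[k] w ∈ W := by
    intro k
    induction k with
    | zero => exact hwW
    | succ k ih => rw [Function.iterate_succ_apply']; exact hfW _ ih
  have hex : ∃ k : ℕ, f^[k] w = 0 := by
    obtain ⟨k, hk⟩ := hnil σ₀
    exact ⟨k, hk w⟩
  have hk0 : Nat.find hex ≠ 0 := by
    intro h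
    have := Nat.find_spec hex
    rw [h] at this
    exact hw0 this.symm
  obtain ⟨j, hj⟩ := Nat.exists_eq_succ_of_ne_zero hk0
  set u : V := f^[j] w with hu
  have huW : u ∈ W := hfWk j
  have hu0 : u ≠ 0 := Nat.find_min hex (m := j) (by omega)
  have hfu : f u = 0 := by
    have := Nat.find_spec hex
    rwa [hj, Nat.succ_eq_add_one, Function.iterate_succ_apply'] at this
  -- reduction to an eigenvector of `σ₀` in `W`
  have hred : ∃ v ∈ W, v ≠ 0 ∧ (σ₀ • v = v ∨ σ₀ • v = c • v) := by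
    by_cases hB : σ₀ • u - c • u = 0
    · exact ⟨u, huW, hu0, Or.inr (sub_eq_zero.1 hB)⟩
    · refine ⟨σ₀ • u - c • u, W.sub_mem (hWstab _ _ huW) (W.nsmul_mem huW _), hB, Or.inl ?_⟩
      rw [← sub_eq_zero, ← hfu, hf]
      simp only [smul_sub, smul_comm σ₀ c, add_smul, one_smul]
      abel
  obtain ⟨v, hvW, hv0, hv⟩ := hred
  refine ⟨v, hv0, ?_⟩
  rcases hv with hv | hv
  · left
    intro σ
    obtain ⟨n, -, hn⟩ := hdec σ
    have h1 : σ = σ₀ ^ n * ((σ₀ ^ n)⁻¹ * σ) := by group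
    have h2 : ∀ n : ℕ, σ₀ ^ n • v = v := by
      intro n
      induction n with
      | zero => simp
      | succ n ih => rw [pow_succ, mul_smul, hv, ih]
    rw [h1, mul_smul, hvW _ hn, h2]
  · right
    intro σ
    obtain ⟨n, hχn, hn⟩ := hdec σ
    have h1 : σ = σ₀ ^ n * ((σ₀ ^ n)⁻¹ * σ) := by group
    have h2 : ∀ n : ℕ, σ₀ ^ n • v = c ^ n • v := by
      intro n
      induction n with
      | zero => simp
      | succ n ih => rw [pow_succ, mul_smul, hv, smul_comm, ih, pow_succ, mul_comm, mul_smul]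
    conv_lhs => rw [h1, mul_smul, hvW _ hn, h2]
    apply DEigen_nsmul_congr (hV v)
    rw [hχn, Nat.cast_pow, hc, ZMod.natCast_zmod_val, ZMod.natCast_zmod_val, Units.val_pow_eq_pow_val]

section FilStepAux

variable {Γ A : Type*} [Group Γ] [AddCommGroup A] [DistribMulAction Γ A]

/-- the action on a stable subgroup. -/
@[reducible] def FilStep_subAct (G : AddSubgroup A) (hG : ∀ σ : Γ, ∀ x ∈ G, σ • x ∈ G) :
    DistribMulAction Γ G where
  smul σ x := ⟨σ • (x : A), hG σ x x.2⟩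
  one_smul x := Subtype.ext (one_smul Γ (x : A))
  mul_smul a b x := Subtype.ext (mul_smul a b (x : A))
  smul_zero a := Subtype.ext (smul_zero a)
  smul_add a x y := Subtype.ext (smul_add a (x : A) (y : A))

/-- the action on the quotient by a stable subgroup. -/
@[reducible] def FilStep_quotAct (H : AddSubgroup A) (hH : ∀ σ : Γ, ∀ x ∈ H, σ • x ∈ H) :
    DistribMulAction Γ (A ⧸ H) where
  smul σ x := QuotientAddGroup.map H H (DistribSMul.toAddMonoidHom A σ) (fun y hy => hH σ y hy) x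
  one_smul x := by
    induction x using QuotientAddGroup.induction_on with
    | H z =>
      show ((((1 : Γ) • z : A)) : A ⧸ H) = z
      rw [one_smul]
  mul_smul a b x := by
    induction x using QuotientAddGroup.induction_on with
    | H z =>
      show ((((a * b) • z : A)) : A ⧸ H) = ((a • b • z : A) : A ⧸ H)
      rw [mul_smul]
  smul_zero a := map_zero _
  smul_add a x y := map_add _ x y

/-- eigenvector in a subquotient `G / F`, stated in the ambient group. -/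
theorem FilStep_eigen {e : ℕ} (he : e.Prime) (χ : Γ →* (ZMod e)ˣ) (G F : AddSubgroup A)
    [Finite G] (hGe : ∀ x ∈ G, e • x = 0) (hG : ∀ σ : Γ, ∀ x ∈ G, σ • x ∈ G)
    (hF : ∀ σ : Γ, ∀ x ∈ F, σ • x ∈ F) (hFG : F < G)
    (hnil : ∀ σ : Γ, ∃ k : ℕ, ∀ x ∈ G,
      (fun y : A => σ • σ • y - (1 + ((χ σ : (ZMod e)ˣ) : ZMod e).val) • σ • y +
        ((χ σ : (ZMod e)ˣ) : ZMod e).val • y)^[k] x = 0) :
    ∃ x₀ ∈ G, x₀ ∉ F ∧ ((∀ σ : Γ, σ • x₀ - x₀ ∈ F) ∨
      (∀ σ : Γ, σ • x₀ - ((χ σ : (ZMod e)ˣ) : ZMod e).val • x₀ ∈ F)) := by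
  let _ : DistribMulAction Γ G := FilStep_subAct G hG
  have hH : ∀ σ : Γ, ∀ x ∈ F.addSubgroupOf G, σ • x ∈ F.addSubgroupOf G := by
    intro σ x hx
    rw [AddSubgroup.mem_addSubgroupOf] at hx ⊢
    exact hF σ _ hx
  let _ : DistribMulAction Γ (G ⧸ F.addSubgroupOf G) := FilStep_quotAct (F.addSubgroupOf G) hH
  have hmk : ∀ (σ : Γ) (x : G), σ • (x : G ⧸ F.addSubgroupOf G) = ((σ • x : G) : G ⧸ F.addSubgroupOf G) :=
    fun _ _ => rfl
  have hval : ∀ (σ : Γ) (x : G), ((σ • x : G) : A) = σ • (x : A) := fun _ _ => rfl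
  obtain ⟨y, hyG, hyF⟩ := SetLike.exists_of_lt hFG
  have hnt : Nontrivial (G ⧸ F.addSubgroupOf G) := by
    refine ⟨⟨((⟨y, hyG⟩ : G) : G ⧸ F.addSubgroupOf G), 0, ?_⟩⟩
    intro h
    rw [QuotientAddGroup.eq_zero_iff, AddSubgroup.mem_addSubgroupOf] at h
    exact hyF h
  have hV : ∀ x : G ⧸ F.addSubgroupOf G, e • x = 0 := by
    intro x
    induction x using QuotientAddGroup.induction_on with
    | H z =>
      have h1 : e • z = 0 := Subtype.ext (hGe z z.2)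
      rw [← QuotientAddGroup.mk_nsmul, h1, QuotientAddGroup.mk_zero]
  have hnil' : ∀ σ : Γ, ∃ k : ℕ, ∀ x : G ⧸ F.addSubgroupOf G,
      (fun y : G ⧸ F.addSubgroupOf G => σ • σ • y - (1 + ((χ σ : (ZMod e)ˣ) : ZMod e).val) • σ • y +
        ((χ σ : (ZMod e)ˣ) : ZMod e).val • y)^[k] x = 0 := by
    intro σ
    obtain ⟨k, hk⟩ := hnil σ
    refine ⟨k, fun x => ?_⟩
    induction x using QuotientAddGroup.induction_on with
    | H z =>
      have s1 : Function.Semiconj (fun z : G => (z : G ⧸ F.addSubgroupOf G))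
          (fun y : G => σ • σ • y - (1 + ((χ σ : (ZMod e)ˣ) : ZMod e).val) • σ • y +
            ((χ σ : (ZMod e)ˣ) : ZMod e).val • y)
          (fun y : G ⧸ F.addSubgroupOf G => σ • σ • y - (1 + ((χ σ : (ZMod e)ˣ) : ZMod e).val) • σ • y +
            ((χ σ : (ZMod e)ˣ) : ZMod e).val • y) := by
        intro y
        simp only [hmk, QuotientAddGroup.mk_add, QuotientAddGroup.mk_sub, QuotientAddGroup.mk_nsmul]
      have s2 : Function.Semiconj (fun z : G => (z : A))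
          (fun y : G => σ • σ • y - (1 + ((χ σ : (ZMod e)ˣ) : ZMod e).val) • σ • y +
            ((χ σ : (ZMod e)ˣ) : ZMod e).val • y)
          (fun y : A => σ • σ • y - (1 + ((χ σ : (ZMod e)ˣ) : ZMod e).val) • σ • y +
            ((χ σ : (ZMod e)ˣ) : ZMod e).val • y) := by
        intro y
        simp only [hval, AddSubgroup.coe_add, AddSubgroup.coe_sub, AddSubgroup.coe_nsmul]
      have h1 := (s1.iterate_right k) z
      have h2 := (s2.iterate_right k) z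
      have h3 : ((fun y : G => σ • σ • y - (1 + ((χ σ : (ZMod e)ˣ) : ZMod e).val) • σ • y +
            ((χ σ : (ZMod e)ˣ) : ZMod e).val • y)^[k] z) = 0 := by
        apply Subtype.ext
        refine h2.trans ?_
        exact hk z z.2
      rw [← h1]
      show (((fun y : G => σ • σ • y - (1 + ((χ σ : (ZMod e)ˣ) : ZMod e).val) • σ • y +
            ((χ σ : (ZMod e)ˣ) : ZMod e).val • y)^[k] z : G) : G ⧸ F.addSubgroupOf G) = 0
      rw [h3, QuotientAddGroup.mk_zero]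
  obtain ⟨v, hv0, hv⟩ := exists_eigenvector he hV χ hnil'
  induction v using QuotientAddGroup.induction_on with
  | H z =>
    refine ⟨z, z.2, ?_, ?_⟩
    · intro hz
      apply hv0
      rw [QuotientAddGroup.eq_zero_iff, AddSubgroup.mem_addSubgroupOf]
      exact hz
    · rcases hv with hv | hv
      · left
        intro σ
        have h1 := hv σ
        rw [hmk, ← sub_eq_zero, ← QuotientAddGroup.mk_sub, QuotientAddGroup.eq_zero_iff,
          AddSubgroup.mem_addSubgroupOf] at h1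
        exact h1
      · right
        intro σ
        have h1 := hv σ
        rw [hmk, ← sub_eq_zero, ← QuotientAddGroup.mk_nsmul, ← QuotientAddGroup.mk_sub,
          QuotientAddGroup.eq_zero_iff, AddSubgroup.mem_addSubgroupOf] at h1
        exact h1

theorem FilStep_mem_sup {F : AddSubgroup A} {x₀ x : A} :
    x ∈ F ⊔ AddSubgroup.zmultiples x₀ ↔ ∃ k : ℤ, x - k • x₀ ∈ F := by
  rw [AddSubgroup.mem_sup]
  constructor
  · rintro ⟨f, hf, y, hy, rfl⟩
    obtain ⟨k, rfl⟩ := AddSubgroup.mem_zmultiples_iff.mp hy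
    exact ⟨k, by simpa using hf⟩
  · rintro ⟨k, hk⟩
    exact ⟨x - k • x₀, hk, k • x₀, AddSubgroup.mem_zmultiples_iff.mpr ⟨k, rfl⟩, by abel⟩

/-- the algebraic core of one step. -/
theorem FilStep_core {e : ℕ} (he : e.Prime) (F : AddSubgroup A)
    (hF : ∀ σ : Γ, ∀ x ∈ F, σ • x ∈ F) (x₀ : A) (hx₀ : x₀ ∉ F) (hex : e • x₀ ∈ F)
    (ψ : Γ → ZMod e) (hψ : ∀ σ : Γ, σ • x₀ - (ψ σ).val • x₀ ∈ F) :
    (∀ σ : Γ, ∀ x ∈ F ⊔ AddSubgroup.zmultiples x₀, σ • x ∈ F ⊔ AddSubgroup.zmultiples x₀) ∧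
    ∃ π : A → ZMod e,
      (∀ x ∈ F ⊔ AddSubgroup.zmultiples x₀, ∀ y ∈ F ⊔ AddSubgroup.zmultiples x₀,
        π (x + y) = π x + π y) ∧
      (∀ x ∈ F ⊔ AddSubgroup.zmultiples x₀, π x = 0 ↔ x ∈ F) ∧
      ∀ σ : Γ, ∀ x ∈ F ⊔ AddSubgroup.zmultiples x₀, π (σ • x) = ψ σ * π x := by
  classical
  have : NeZero e := ⟨he.ne_zero⟩
  -- multiples of `x₀` in `F`
  have hdvd : ∀ k : ℤ, k • x₀ ∈ F ↔ (e : ℤ) ∣ k := by
    intro k
    constructor
    · intro hk
      by_contra hnd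
      have hcop : IsCoprime (e : ℤ) k :=
        (Nat.prime_iff_prime_int.mp he).coprime_iff_not_dvd.mpr hnd
      obtain ⟨a, b, hab⟩ := hcop
      apply hx₀
      have h1 : x₀ = a • ((e : ℤ) • x₀) + b • (k • x₀) := by
        rw [smul_smul, smul_smul, ← add_smul, hab, one_smul]
      rw [h1]
      refine F.add_mem (F.zsmul_mem ?_ a) (F.zsmul_mem hk b)
      rw [natCast_zsmul]
      exact hex
    · rintro ⟨c, rfl⟩
      rw [mul_comm, mul_smul, natCast_zsmul]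
      exact F.zsmul_mem hex c
  -- the transformation formula
  have hact : ∀ (σ : Γ) (x : A) (k : ℤ), x - k • x₀ ∈ F →
      σ • x - (k * ((ψ σ).val : ℤ)) • x₀ ∈ F := by
    intro σ x k hk
    have h1 := hF σ _ hk
    have h2 := F.zsmul_mem (hψ σ) k
    have h3 : σ • x - (k * ((ψ σ).val : ℤ)) • x₀
        = σ • (x - k • x₀) + k • (σ • x₀ - (ψ σ).val • x₀) := by
      rw [smul_sub, smul_sub, mul_smul, natCast_zsmul, smul_comm σ k x₀]
      abel
    rw [h3]
    exact F.add_mem h1 h2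
  refine ⟨fun σ x hx => ?_, ?_⟩
  · obtain ⟨k, hk⟩ := FilStep_mem_sup.mp hx
    exact FilStep_mem_sup.mpr ⟨_, hact σ x k hk⟩
  let π : A → ZMod e := fun x => if h : ∃ k : ℤ, x - k • x₀ ∈ F then ((h.choose : ℤ) : ZMod e) else 0
  have hπ : ∀ (x : A) (k : ℤ), x - k • x₀ ∈ F → π x = (k : ZMod e) := by
    intro x k hk
    have hex' : ∃ k : ℤ, x - k • x₀ ∈ F := ⟨k, hk⟩
    have h1 : π x = ((hex'.choose : ℤ) : ZMod e) := dif_pos hex'
    rw [h1, ZMod.intCast_eq_intCast_iff_dvd_sub, ← hdvd]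
    have h2 := F.sub_mem hex'.choose_spec hk
    have h3 : (k - hex'.choose) • x₀ = x - hex'.choose • x₀ - (x - k • x₀) := by
      rw [sub_smul]
      abel
    rw [h3]
    exact h2
  refine ⟨π, ?_, ?_, ?_⟩
  · intro x hx y hy
    obtain ⟨k, hk⟩ := FilStep_mem_sup.mp hx
    obtain ⟨l, hl⟩ := FilStep_mem_sup.mp hy
    have h1 : x + y - (k + l) • x₀ ∈ F := by
      have := F.add_mem hk hl
      have h3 : x + y - (k + l) • x₀ = x - k • x₀ + (y - l • x₀) := by
        rw [add_smul]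
        abel
      rw [h3]
      exact this
    rw [hπ _ _ h1, hπ _ _ hk, hπ _ _ hl, Int.cast_add]
  · intro x hx
    obtain ⟨k, hk⟩ := FilStep_mem_sup.mp hx
    rw [hπ _ _ hk, ZMod.intCast_zmod_eq_zero_iff_dvd, ← hdvd]
    constructor
    · intro h
      have := F.add_mem hk h
      rwa [sub_add_cancel] at this
    · intro h
      have := F.sub_mem h hk
      rwa [sub_sub_cancel] at this
  · intro σ x hx
    obtain ⟨k, hk⟩ := FilStep_mem_sup.mp hx
    rw [hπ _ _ (hact σ x k hk), hπ _ _ hk, Int.cast_mul, Int.cast_natCast, ZMod.natCast_zmod_val,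
      mul_comm]

end FilStepAux

variable {J : Type*} [AddCommGroup J] [DistribMulAction GQ J] {e : ℕ}

/-- (D-FilStep) one step: apply `exists_eigenvector` to `V = G / F` (e.g. `↥G ⧸ F.addSubgroupOf G` with the induced action), `v = x₀ mod F`;
`F' = F + ℤ x₀`; `π (f + k x₀) = k`. -/
theorem exists_eisStep (he : e.Prime) {χ : GQ → ZMod e} (hχ : IsCyc e χ) (G F : AddSubgroup J)
    [Finite G] (hGe : ∀ x ∈ G, e • x = 0) (hG : ∀ σ : GQ, ∀ x ∈ G, σ • x ∈ G)
    (hF : ∀ σ : GQ, ∀ x ∈ F, σ • x ∈ F) (hFG : F < G)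
    (hnil : ∀ σ : GQ, ∃ k : ℕ, ∀ x ∈ G, (eisOp χ σ)^[k] x = 0) :
    ∃ F' : AddSubgroup J, F < F' ∧ F' ≤ G ∧ (∀ σ : GQ, ∀ x ∈ F', σ • x ∈ F') ∧
      IsEisStep e χ (smulAct J) F F' := by
  have : Fact e.Prime := ⟨he⟩
  have : Fact (1 < e) := ⟨he.one_lt⟩
  have hnil' : ∀ σ : GQ, ∃ k : ℕ, ∀ x ∈ G,
      (fun y : J => σ • σ • y - (1 + ((ExtCitation.cycloChar e σ : (ZMod e)ˣ) : ZMod e).val) • σ • y +
        ((ExtCitation.cycloChar e σ : (ZMod e)ˣ) : ZMod e).val • y)^[k] x = 0 := by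
    intro σ
    obtain ⟨k, hk⟩ := hnil σ
    refine ⟨k, fun x hx => ?_⟩
    have h1 : (fun y : J => σ • σ • y -
        (1 + ((ExtCitation.cycloChar e σ : (ZMod e)ˣ) : ZMod e).val) • σ • y +
        ((ExtCitation.cycloChar e σ : (ZMod e)ˣ) : ZMod e).val • y) = eisOp χ σ := by
      funext y
      rw [eisOp, hχ.eq_cycloChar σ]
    rw [h1]
    exact hk x hx
  obtain ⟨x₀, hx₀G, hx₀F, hx₀⟩ :=
    FilStep_eigen he (ExtCitation.cycloChar e) G F hGe hG hF hFG hnil'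
  have hex : e • x₀ ∈ F := by
    rw [hGe x₀ hx₀G]
    exact F.zero_mem
  have hmem : x₀ ∈ F ⊔ AddSubgroup.zmultiples x₀ :=
    AddSubgroup.mem_sup_right (AddSubgroup.mem_zmultiples x₀)
  have key : ∀ ψ : GQ → ZMod e, ((∀ σ, ψ σ = 1) ∨ ψ = χ) →
      (∀ σ : GQ, σ • x₀ - (ψ σ).val • x₀ ∈ F) →
      ∃ F' : AddSubgroup J, F < F' ∧ F' ≤ G ∧ (∀ σ : GQ, ∀ x ∈ F', σ • x ∈ F') ∧
        IsEisStep e χ (smulAct J) F F' := by
    intro ψ hψ1 hψ
    obtain ⟨hst, π, hadd, hker, hact⟩ := FilStep_core he F hF x₀ hx₀F hex ψ hψ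
    refine ⟨F ⊔ AddSubgroup.zmultiples x₀, ?_, ?_, hst, ?_⟩
    · exact lt_of_le_of_ne le_sup_left (fun h => hx₀F (h ▸ hmem))
    · exact sup_le hFG.le ((AddSubgroup.zmultiples_le).mpr hx₀G)
    · exact ⟨le_sup_left, hst, π, ψ, hψ1, hadd, hker, hact⟩
  rcases hx₀ with h | h
  · refine key (fun _ => 1) (Or.inl fun _ => rfl) (fun σ => ?_)
    rw [ZMod.val_one, one_smul]
    exact h σ
  · refine key χ (Or.inr rfl) (fun σ => ?_)
    rw [hχ.eq_cycloChar σ]
    exact h σ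

/-- chains from any stable `F ≤ G` up to `G`. -/
theorem FilChain_aux (he : e.Prime) {χ : GQ → ZMod e} (hχ : IsCyc e χ) (G : AddSubgroup J)
    [Finite G] (hGe : ∀ x ∈ G, e • x = 0) (hG : ∀ σ : GQ, ∀ x ∈ G, σ • x ∈ G)
    (hnil : ∀ σ : GQ, ∃ k : ℕ, ∀ x ∈ G, (eisOp χ σ)^[k] x = 0) :
    ∀ (n : ℕ) (F : AddSubgroup J), F ≤ G → (∀ σ : GQ, ∀ x ∈ F, σ • x ∈ F) →
      (G : Set J).ncard - (F : Set J).ncard ≤ n →
      ∃ (Fs : ℕ → AddSubgroup J) (m : ℕ), Fs 0 = F ∧ Fs m = G ∧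
        ∀ i < m, IsEisStep e χ (smulAct J) (Fs i) (Fs (i + 1)) := by
  have hfin : (G : Set J).Finite := Set.toFinite _
  intro n
  induction n with
  | zero =>
    intro F hFG _ hn
    have h1 : (F : Set J) = G := Set.eq_of_subset_of_ncard_le hFG (by omega) hfin
    exact ⟨fun _ => F, 0, rfl, SetLike.coe_injective h1, fun i hi => absurd hi (Nat.not_lt_zero i)⟩
  | succ n ih =>
    intro F hFG hF hn
    rcases eq_or_lt_of_le hFG with rfl | hlt
    · exact ⟨fun _ => F, 0, rfl, rfl, fun i hi => absurd hi (Nat.not_lt_zero i)⟩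
    · obtain ⟨F', hFF', hF'G, hF', hstep⟩ := exists_eisStep he hχ G F hGe hG hF hlt hnil
      have h1 : (F : Set J).ncard < (F' : Set J).ncard :=
        Set.ncard_lt_ncard (SetLike.coe_ssubset_coe.2 hFF') (hfin.subset hF'G)
      have h2 : (F' : Set J).ncard ≤ (G : Set J).ncard := Set.ncard_le_ncard hF'G hfin
      obtain ⟨Fs, m, h0, hm, hs⟩ := ih F' hF'G hF' (by omega)
      refine ⟨fun i => Nat.casesOn i F Fs, m + 1, rfl, hm, ?_⟩
      intro i hi
      cases i with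
      | zero =>
        show IsEisStep e χ (smulAct J) F (Fs 0)
        rw [h0]
        exact hstep
      | succ i => exact hs i (by omega)

/-- (D-FilChain) **(D2)**: existence of an Eisenstein filtration.
[iterate `exists_eisStep` from `F = ⊥`; terminates because `G` is finite (strong induction on `Nat.card G - Nat.card F`, or on the index).] -/
theorem exists_eisFiltration (he : e.Prime) {χ : GQ → ZMod e} (hχ : IsCyc e χ) (G : AddSubgroup J)
    [Finite G] (hGe : ∀ x ∈ G, e • x = 0) (hG : ∀ σ : GQ, ∀ x ∈ G, σ • x ∈ G)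
    (hnil : ∀ σ : GQ, ∃ k : ℕ, ∀ x ∈ G, (eisOp χ σ)^[k] x = 0) :
    ∃ (F : ℕ → AddSubgroup J) (m : ℕ), F 0 = ⊥ ∧ F m = G ∧
      ∀ i < m, IsEisStep e χ (smulAct J) (F i) (F (i + 1)) := by
  obtain ⟨Fs, m, h0, hm, hs⟩ := FilChain_aux he hχ G hGe hG hnil _ ⊥ bot_le
    (fun σ x hx => by
      rw [AddSubgroup.mem_bot] at hx ⊢
      rw [hx, smul_zero]) le_rfl
  exact ⟨Fs, m, h0, hm, hs⟩

end Fermat.Agent.S15.D
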