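import Fermat.Agent.S15.D.Tame
import Fermat.Agent.S15.D.Cyc

/-!
# S15 / D : global inputs   (TASKS S15/D-KumQ, S15/D-KumCyc, S15/D-Mink, S15/D-Rat)
Hilbert 90 / Kummer theory over `ℚ` and `ℚ(μ_e)` (from `S55.B.exists_kum_eq`), Minkowski (from `S13.subgroup_eq_top_of_inertia`),
and the arithmetic of `ℚ^× / e`.
-/

set_option autoImplicit false

namespace Fermat.Agent.S15.D

open Fermat.Agent.S55 Fermat.Agent.S55.Places Fermat.Agent.S36.Base

variable {e : ℕ} [Fact e.Prime]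

/-- (helper for D-KumQ / D-KumCyc) restriction of a continuous cocycle to a subgroup is a level cocycle. -/
theorem KumQ_mem_Z1 (H : Subgroup GQ) (c : GQ → ZMod e)
    (hcoc : ∀ σ ∈ H, ∀ τ ∈ H, c (σ * τ)
      = c σ + ((ExtCitation.cycloChar e σ : (ZMod e)ˣ) : ZMod e) * c τ)
    (hcont : ∃ L : NF, FiniteDimensional ℚ L ∧ ∀ σ ∈ L.fixingSubgroup, c σ = 0) :
    (fun g : H => c (g : GQ)) ∈ Z1 (Lall.sub H) (rsub (mu e) H) := by
  rw [mem_Z1]
  refine ⟨fun g h => ?_, ?_⟩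
  · show c ((g : GQ) * (h : GQ)) = mu e (g : GQ) (c (h : GQ)) + c (g : GQ)
    rw [hcoc _ g.2 _ h.2, mu_apply, add_comm]
  · obtain ⟨L, hL, hL'⟩ := hcont
    refine ⟨L.fixingSubgroup.comap H.subtype,
      ⟨L.fixingSubgroup, Lall_isOpen_iff.2 ⟨L, hL, le_rfl⟩, le_rfl⟩, fun g s hs => ?_⟩
    show c ((g : GQ) * (s : GQ)) = c (g : GQ)
    have hs' : c (s : GQ) = 0 := hL' _ hs
    rw [hcoc _ g.2 _ s.2, hs', mul_zero, add_zero]

/-- (D-KumQ) Kummer theory over `ℚ`: a continuous cocycle `GQ → μ_e = ZMod e (χ)` is a Kummer cochain of some `β`, `β ^ e ∈ ℚ`.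
[`S55.B.exists_kum_eq` with `H = ⊤` (or `hilbert90_top`); `Fix ⊤ = ⊥`.] -/
theorem exists_kum_of_cocycle {χ : GQ → ZMod e} (hχ : IsCyc e χ) (c : GQ → ZMod e)
    (hcoc : ∀ σ τ, c (σ * τ) = c σ + χ σ * c τ)
    (hcont : ∃ L : NF, FiniteDimensional ℚ L ∧ ∀ σ ∈ L.fixingSubgroup, c σ = 0) :
    ∃ (β : Qbarˣ) (b : ℚ), (β : Qbar) ^ e = algebraMap ℚ Qbar b ∧ ∀ σ, c σ = kum e β σ := by
  have hz := KumQ_mem_Z1 (⊤ : Subgroup GQ) c
    (fun σ _ τ _ => by rw [hcoc, hχ.eq_cycloChar]) hcont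
  obtain ⟨β, hβ, hk⟩ := B.exists_kum_eq e hz
  rw [mem_Fix_iff] at hβ
  have := isGalois_Qbar
  obtain ⟨b, hb⟩ := (InfiniteGalois.mem_range_algebraMap_iff_fixed ((β : Qbar) ^ e)).mpr
    (fun f => hβ f (Subgroup.mem_top f))
  exact ⟨β, b, hb.symm, fun σ => hk ⟨σ, Subgroup.mem_top σ⟩⟩

/-- (D-KumCyc) Kummer theory over `ℚ(μ_e)`: a continuous homomorphism `GQ → ZMod e` is, on `H = ker χ`, a Kummer cochain.
[`S55.B.exists_kum_eq` with `H = (cycloChar e).ker`: on `H` the representation `mu e` is trivial.] -/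
theorem exists_kum_of_hom (c : GQ → ZMod e) (hadd : ∀ σ τ, c (σ * τ) = c σ + c τ)
    (hcont : ∃ L : NF, FiniteDimensional ℚ L ∧ ∀ σ ∈ L.fixingSubgroup, c σ = 0) :
    ∃ β : Qbarˣ, ∀ t : GQ, (∀ ζ : Qbar, ζ ^ e = 1 → t ζ = ζ) →
      t ((β : Qbar) ^ e) = (β : Qbar) ^ e ∧ c t = kum e β t := by
  set H : Subgroup GQ := (ExtCitation.cycloChar e).ker with hH
  have hz : (fun g : H => c g) ∈ Z1 (Lall.sub H) (rsub (mu e) H) := by
    rw [mem_Z1]
    refine ⟨fun g h => ?_, ?_⟩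
    · have hg : ExtCitation.cycloChar e (g : GQ) = 1 := g.2
      change c ((g : GQ) * (h : GQ)) = mu e (g : GQ) (c h) + c g
      rw [mu_apply, hg, Units.val_one, one_mul, hadd, add_comm]
    · obtain ⟨L, hL, hL0⟩ := hcont
      refine ⟨L.fixingSubgroup.comap H.subtype,
        ⟨L.fixingSubgroup, Lall_isOpen_iff.2 ⟨L, hL, le_rfl⟩, le_rfl⟩, fun g s hs => ?_⟩
      change c ((g : GQ) * (s : GQ)) = c g
      rw [hadd, hL0 (s : GQ) hs, add_zero]
  obtain ⟨β, hβ, hk⟩ := B.exists_kum_eq e hz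
  refine ⟨β, fun t ht => ?_⟩
  have htH : t ∈ H := by
    have h1 := (isCyc_cycloChar (e := e)).eq_one_iff t |>.2 ht
    exact Units.ext h1
  exact ⟨B.Kum_fix_of_mem e hβ ⟨t, htH⟩, hk ⟨t, htH⟩⟩

/-- (D-Mink) there is a place over every prime. [`padicPlace`] -/
theorem exists_place {l : ℕ} (hl : l.Prime) : ∃ A : ValuationSubring Qbar, A.LiesOverPrime l := by
  have : Fact l.Prime := ⟨hl⟩
  exact ⟨padicPlace l, padicPlace_liesOverPrime l⟩

/-- (D-Mink) **Minkowski**: an everywhere unramified continuous homomorphism `GQ → ZMod e` vanishes.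
[`S13.subgroup_eq_top_of_inertia` for `H = ker c`.] -/
theorem hom_eq_zero_of_unramified (c : GQ → ZMod e) (hadd : ∀ σ τ, c (σ * τ) = c σ + c τ)
    (hcont : ∃ L : NF, FiniteDimensional ℚ L ∧ ∀ σ ∈ L.fixingSubgroup, c σ = 0)
    (h : ∀ l : ℕ, l.Prime → ∃ A : ValuationSubring Qbar, A.LiesOverPrime l ∧
      ∀ σ ∈ A.inertiaSubgroupIn ℚ, c σ = 0) : ∀ σ, c σ = 0 := by
  have h1 : c 1 = 0 := by
    have := hadd 1 1
    rw [mul_one] at this
    exact left_eq_add.1 this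
  let f : GQ →* Multiplicative (ZMod e) :=
    { toFun := fun σ => Multiplicative.ofAdd (c σ)
      map_one' := by rw [h1]; rfl
      map_mul' := fun σ τ => by rw [hadd]; rfl }
  have hmem : ∀ σ, σ ∈ f.ker ↔ c σ = 0 := by
    intro σ
    rw [MonoidHom.mem_ker]
    exact Iff.rfl
  obtain ⟨L, hL, hLc⟩ := hcont
  have htop : f.ker = ⊤ :=
    Fermat.Agent.S13.subgroup_eq_top_of_inertia f.ker L (fun σ hσ => (hmem σ).2 (hLc σ hσ))
      (fun l hl => by
        obtain ⟨A, hA, hAc⟩ := h l hl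
        exact ⟨A, hA, fun σ hσ => (hmem σ).2 (hAc σ hσ)⟩)
  intro σ
  exact (hmem σ).1 (htop ▸ Subgroup.mem_top σ)

theorem DRat_nat_eq_pow {e m : ℕ} (hm : m ≠ 0) (h : ∀ l, e ∣ m.factorization l) :
    ∃ m₁, m₁ ≠ 0 ∧ m = m₁ ^ e := by
  refine ⟨∏ p ∈ m.primeFactors, p ^ (m.factorization p / e), ?_, ?_⟩
  · exact Finset.prod_ne_zero_iff.mpr fun p hp =>
      pow_ne_zero _ (Nat.prime_of_mem_primeFactors hp).ne_zero
  · rw [← Finset.prod_pow]
    conv_lhs => rw [Nat.prod_primeFactors_pow_factorization hm]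
    refine Finset.prod_congr rfl fun p _ => ?_
    rw [← pow_mul, Nat.div_mul_cancel (h p)]

theorem DRat_nat {e N m : ℕ} (hN : N.Prime) (hm : m ≠ 0)
    (h : ∀ l, l.Prime → l ≠ N → e ∣ padicValNat l m) :
    ∃ a m₁, m₁ ≠ 0 ∧ m = N ^ a * m₁ ^ e := by
  obtain ⟨a, m', hNm', rfl⟩ := Nat.exists_eq_pow_mul_and_not_dvd hm N hN.ne_one
  have hm' : m' ≠ 0 := right_ne_zero_of_mul hm
  obtain ⟨m₁, h1, h2⟩ := DRat_nat_eq_pow (e := e) hm' (fun l => by
    by_cases hl : l.Prime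
    · by_cases hlN : l = N
      · subst hlN
        rw [Nat.factorization_eq_zero_of_not_dvd hNm']
        exact dvd_zero _
      · have h3 := h l hl hlN
        have := Fact.mk hl
        have := Fact.mk hN
        rw [padicValNat.mul (pow_ne_zero _ hN.ne_zero) hm', padicValNat.pow,
          padicValNat_primes hlN, mul_zero, zero_add] at h3
        rwa [Nat.factorization_def _ hl]
    · rw [Nat.factorization_eq_zero_of_not_prime _ hl]
      exact dvd_zero _)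
  exact ⟨a, m₁, h1, by rw [h2]⟩

/-- (D-Rat) a rational number whose valuations away from `N` are divisible by `e` is `± N^i r^e`. -/
theorem rat_eq_of_padicVal {N : ℕ} (hN : N.Prime) {b : ℚ} (hb : b ≠ 0)
    (h : ∀ l : ℕ, l.Prime → l ≠ N → (e : ℤ) ∣ padicValRat l b) :
    ∃ (i : ℕ) (r : ℚ), r ≠ 0 ∧ (b = (N : ℚ) ^ i * r ^ e ∨ b = -((N : ℚ) ^ i * r ^ e)) := by
  have he : 0 < e := (Fact.out : e.Prime).pos
  have hn : b.num.natAbs ≠ 0 := Int.natAbs_ne_zero.mpr (Rat.num_ne_zero.mpr hb)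
  have hd : b.den ≠ 0 := b.den_ne_zero
  obtain ⟨a, m₁, hm₁, hm⟩ := DRat_nat (e := e) hN (m := b.num.natAbs * b.den ^ (e - 1))
    (mul_ne_zero hn (pow_ne_zero _ hd)) (by
      intro l hl hlN
      have := Fact.mk hl
      have h1 := h l hl hlN
      rw [padicValNat.mul hn (pow_ne_zero _ hd), padicValNat.pow]
      have h2 : padicValRat l b = (padicValNat l b.num.natAbs : ℤ) - padicValNat l b.den := rfl
      rw [h2] at h1
      generalize padicValNat l b.num.natAbs = x at h1 ⊢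
      generalize padicValNat l b.den = y at h1 ⊢
      rw [← Int.natCast_dvd_natCast]
      push_cast [Nat.cast_sub (show 1 ≤ e from he)]
      have h3 : (x : ℤ) + ((e : ℤ) - 1) * y = ((x : ℤ) - y) + e * y := by
        ring
      rw [h3]
      exact dvd_add h1 (dvd_mul_right _ _))
  have hdQ : (b.den : ℚ) ≠ 0 := by exact_mod_cast hd
  have hm₁Q : (m₁ : ℚ) ≠ 0 := by exact_mod_cast hm₁
  refine ⟨a, (m₁ : ℚ) / b.den, div_ne_zero hm₁Q hdQ, ?_⟩
  have hmQ : (b.num.natAbs : ℚ) * (b.den : ℚ) ^ (e - 1) = (N : ℚ) ^ a * (m₁ : ℚ) ^ e := by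
    exact_mod_cast hm
  have key : (b.num.natAbs : ℚ) / b.den = (N : ℚ) ^ a * ((m₁ : ℚ) / b.den) ^ e := by
    rw [div_pow, ← mul_div_assoc, ← hmQ, div_eq_div_iff hdQ (pow_ne_zero _ hdQ)]
    obtain ⟨e', rfl⟩ : ∃ e', e = e' + 1 := ⟨e - 1, by omega⟩
    rw [Nat.add_sub_cancel]
    ring
  have hb' : b = (b.num : ℚ) / b.den := (Rat.num_div_den b).symm
  rcases Int.natAbs_eq b.num with h1 | h1
  · left
    rw [← key]
    conv_lhs => rw [hb', h1]
    rw [Int.cast_natCast]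
  · right
    rw [← key]
    conv_lhs => rw [hb', h1]
    rw [Int.cast_neg, Int.cast_natCast, neg_div]

/-- (D-Rat) `η ^ e = ± 1` implies `η = ± ξ ^ j`. -/
theorem eq_xi_pow_of_pow_eq {ξ η : Qbar} (hξ : IsPrimitiveRoot ξ (xiOrd e))
    (hη : η ^ e = 1 ∨ η ^ e = -1) : ∃ j : ℕ, η = ξ ^ j ∨ η = -ξ ^ j := by
  have he : e.Prime := Fact.out
  by_cases h2 : e = 2
  · have hξ4 : IsPrimitiveRoot ξ 4 := by rwa [xiOrd, if_pos h2] at hξ
    have hη4 : η ^ 4 = 1 := by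
      have h4 : η ^ 4 = (η ^ 2) ^ 2 := by ring
      rw [h4]
      rcases hη with h | h <;> rw [h2] at h <;> rw [h] <;> norm_num
    obtain ⟨j, -, hj⟩ := hξ4.eq_pow_of_pow_eq_one hη4
    exact ⟨j, Or.inl hj.symm⟩
  · have hξe : IsPrimitiveRoot ξ e := by rwa [xiOrd, if_neg h2] at hξ
    have hodd : Odd e := he.odd_of_ne_two h2
    have : NeZero e := ⟨he.ne_zero⟩
    rcases hη with h | h
    · obtain ⟨j, -, hj⟩ := hξe.eq_pow_of_pow_eq_one h
      exact ⟨j, Or.inl hj.symm⟩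
    · have h1 : (-η) ^ e = 1 := by rw [hodd.neg_pow, h, neg_neg]
      obtain ⟨j, -, hj⟩ := hξe.eq_pow_of_pow_eq_one h1
      exact ⟨j, Or.inr (by rw [hj, neg_neg])⟩

end Fermat.Agent.S15.D
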