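import Fermat.Agent.S15.D.Devissage
import Fermat.Agent.S15.D.Filtration

/-!
# S15 / D : the exported theorem
-/

set_option autoImplicit false

namespace Fermat.Agent.S15.D

open Fermat.Agent.S55 Fermat.Agent.S55.Places

variable {J : Type*} [AddCommGroup J] [DistribMulAction GQ J] {e N : ℕ}
  {Ae AN : ValuationSubring Qbar}

/-- **Part D**: `G ≤ J` finite, killed by `e`, Galois stable, `(σ-1)(σ-χ σ)` nilpotent on `G` for every `σ`; `G0`, `TT` arbitrary subgroups.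
Then the number of Selmer COCYCLES with values in `G` is at most `#(G0 ⊓ G) * #(TT ⊓ G)`. -/
theorem card_sel_le_of_nilpotent (he : e.Prime) (hN : N.Prime) (heN : e ≠ N)
    (hAe : Ae.LiesOverPrime e) (hAN : AN.LiesOverPrime N) {χ : GQ → ZMod e} (hχ : IsCyc e χ)
    (G : AddSubgroup J) [Finite G] (hGe : ∀ x ∈ G, e • x = 0) (hG : ∀ σ : GQ, ∀ x ∈ G, σ • x ∈ G)
    (hnil : ∀ σ : GQ, ∃ k : ℕ, ∀ x ∈ G, (eisOp χ σ)^[k] x = 0) (G0 TT : AddSubgroup J) :
    Finite (Sel e N Ae AN (smulAct J) G G0 TT) ∧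
      Nat.card (Sel e N Ae AN (smulAct J) G G0 TT) ≤ Nat.card ↥(G0 ⊓ G) * Nat.card ↥(TT ⊓ G) := by
  have : Fact e.Prime := ⟨he⟩
  obtain ⟨F, m, hF0, hFm, hF⟩ := exists_eisFiltration he hχ G hGe hG hnil
  have := card_sel_le (Ae := Ae) (AN := AN) hN heN hAe hAN hχ F m hF0 hF G0 TT
  rwa [hFm] at this

end Fermat.Agent.S15.D
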