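import Fermat.Agent.S15.D.Deep

/-!
# S15 / D : tame inertia (`A` over a prime `q ≠ e`) and Kummer cochains   (TASKS S15/D-Tame, S15/D-KumLoc)

`kum e β σ ∈ ZMod e` is the Kummer cochain of S55 (`Arith/Defs.lean`, `B/Kum.lean`): `σ β / β = ζ ^ (kum e β σ)` if `σ` fixes `β ^ e`.
-/

set_option autoImplicit false

namespace Fermat.Agent.S15.D

open Fermat.Agent.S55 Fermat.Agent.S55.Places Fermat.Agent.S36.Base

variable {e q : ℕ} [Fact e.Prime] {A : ValuationSubring Qbar}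

/-- (D-Tame) `q ≠ e`: the `e`-th roots of inertia-invariant units are inertia-invariant.
[`σ z = η z`, `η ^ e = 1`; `σ z - z ∈ 𝔪` (`S55.mem_inertia_iff`), `z` a unit, so `η - 1 ∈ 𝔪`, so `η = 1`
(`ES.D.eq_one_of_pow_eq_one_of_val_lt`).] -/
theorem inertia_fixes_unitRoot (hq : q.Prime) (hA : A.LiesOverPrime q) (hqe : q ≠ e) {z : Qbar}
    (hz : z ∈ unitRoots e A) : ∀ σ ∈ A.inertiaSubgroupIn ℚ, σ z = z := by
  intro σ hσ
  have he : e.Prime := Fact.out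
  rcases eq_or_ne z 0 with rfl | hz0
  · exact map_zero σ
  have hv : A.valuation z = 1 := val_unitRoots he.ne_zero hz hz0
  have hzA : z ∈ A := ((val_eq_one_iff hz0).1 hv).1
  have h1 : σ z - z ∈ A.nonunits := ((mem_inertia_iff A σ).1 hσ).2 z hzA
  have h2 : A.valuation (σ z - z) < 1 := (ValuationSubring.mem_nonunits_iff A).1 h1
  have hη : (σ z / z) ^ e = 1 := by
    rw [div_pow, ← map_pow, hz.2.2 σ hσ, div_self (pow_ne_zero _ hz0)]
  have h3 : σ z / z = 1 := by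
    refine Fermat.Agent.ES.D.eq_one_of_pow_eq_one_of_val_lt hq hA ?_ hη ?_
    · intro hd
      exact hqe ((Nat.prime_dvd_prime_iff_eq hq he).1 hd)
    · have : σ z / z - 1 = (σ z - z) / z := by field_simp
      rw [this, map_div₀, hv, div_one]
      exact h2
  exact (div_eq_one_iff_eq hz0).1 h3

/-- (D-Tame) **tame inertia is "cyclic"**: on `I_A` every Kummer cochain of an element of `L0 A` is a multiple of that of `q`.
[`val_L0`: `v(β^e) = v(q)^k`; `z = β ν^(-k)` is in `unitRoots e A`, so it is fixed by `I_A`; `kum_mul`, `kum_zpow`.] -/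
theorem tame_kum (hq : q.Prime) (hA : A.LiesOverPrime q) (hqe : q ≠ e) (β ν : Qbarˣ)
    (hβ : (β : Qbar) ^ e ∈ L0 A) (hν : (ν : Qbar) ^ e = q) :
    ∃ i : ZMod e, ∀ σ ∈ A.inertiaSubgroupIn ℚ, kum e β σ = i * kum e ν σ := by
  obtain ⟨k, hk⟩ := val_L0 hq hA hβ (pow_ne_zero _ β.ne_zero)
  refine ⟨(k : ZMod e), fun σ hσ => ?_⟩
  have hfβ : ∀ σ ∈ A.inertiaSubgroupIn ℚ, σ ((β : Qbar) ^ e) = (β : Qbar) ^ e := mem_L0_iff.1 hβ
  have hfν : ∀ σ : GQ, σ ((ν : Qbar) ^ e) = (ν : Qbar) ^ e := by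
    intro σ
    rw [hν, map_natCast]
  have hze : (((β * ν ^ (-k) : Qbarˣ) : Qbar)) ^ e = (β : Qbar) ^ e * (q : Qbar) ^ (-k) := by
    rw [Units.val_mul, mul_pow, Units.val_zpow_eq_zpow_val, ← hν, ← zpow_natCast (ν : Qbar) e,
      ← zpow_natCast ((ν : Qbar) ^ (-k)) e, ← zpow_mul, ← zpow_mul, mul_comm (-k)]
  have hz : ((β * ν ^ (-k) : Qbarˣ) : Qbar) ∈ unitRoots e A := by
    have hv : A.valuation ((((β * ν ^ (-k) : Qbarˣ) : Qbar)) ^ e) = 1 := by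
      rw [hze, map_mul, hk, map_zpow₀, ← zpow_add₀ (val_prime_ne_zero hq), add_neg_cancel, zpow_zero]
    obtain ⟨h1, h2⟩ := (val_eq_one_iff (pow_ne_zero _ (Units.ne_zero _))).1 hv
    exact ⟨h1, h2, fun τ hτ => B.Kum_fix_mul e (hfβ τ hτ) (B.Kum_fix_zpow e (hfν τ) _)⟩
  have h0 : kum e (β * ν ^ (-k)) σ = 0 :=
    (B.kum_eq_zero_iff e (B.Kum_fix_mul e (hfβ σ hσ) (B.Kum_fix_zpow e (hfν σ) _))).2
      (inertia_fixes_unitRoot hq hA hqe hz σ hσ)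
  rw [B.kum_mul e (hfβ σ hσ) (B.Kum_fix_zpow e (hfν σ) _), B.kum_zpow e (hfν σ), neg_smul,
    add_neg_eq_zero, zsmul_eq_mul] at h0
  exact h0

omit [Fact e.Prime] in
/-- (D-KumLoc helper) `ξ ^ e = ± 1`. -/
theorem KumLoc_xi_pow {ξ : Qbar} (hξ : IsPrimitiveRoot ξ (xiOrd e)) : ξ ^ e = 1 ∨ ξ ^ e = -1 := by
  by_cases h2 : e = 2
  · rw [xiOrd, if_pos h2] at hξ
    apply mul_self_eq_one_iff.1
    rw [h2, ← pow_add]
    exact hξ.pow_eq_one
  · rw [xiOrd, if_neg h2] at hξ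
    exact Or.inl hξ.pow_eq_one

omit [Fact e.Prime] in
/-- (D-KumLoc helper) every automorphism fixes `ξ ^ e`. -/
theorem KumLoc_xi_pow_fixed {ξ : Qbar} (hξ : IsPrimitiveRoot ξ (xiOrd e)) (σ : GQ) :
    σ (ξ ^ e) = ξ ^ e := by
  rcases KumLoc_xi_pow hξ with h | h
  · rw [h, map_one]
  · rw [h, map_neg, map_one]

omit [Fact e.Prime] in
/-- (D-KumLoc helper) -/
theorem KumLoc_xi_mem_unitRoots {ξ : Qbar} (hξ : IsPrimitiveRoot ξ (xiOrd e)) :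
    ξ ∈ unitRoots e A := by
  refine ⟨?_, ?_, fun σ _ => KumLoc_xi_pow_fixed hξ σ⟩
  · rcases KumLoc_xi_pow hξ with h | h
    · rw [h]; exact one_mem A
    · rw [h]; exact neg_mem (one_mem A)
  · rcases KumLoc_xi_pow hξ with h | h
    · rw [h, inv_one]; exact one_mem A
    · rw [h, inv_neg, inv_one]; exact neg_mem (one_mem A)

/-- (D-KumLoc) `q^{1/e}` is ramified at `q` (here `q = e` is allowed).
[otherwise `ν ∈ L0 A`, `v(ν) = v(q)^k`, `v(q)^(e k) = v(q)`, `val_zpow_inj`.] -/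
theorem exists_inertia_kum_nu_ne_zero (hq : q.Prime) (hA : A.LiesOverPrime q) (ν : Qbarˣ)
    (hν : (ν : Qbar) ^ e = q) : ∃ σ ∈ A.inertiaSubgroupIn ℚ, kum e ν σ ≠ 0 := by
  have he : e.Prime := Fact.out
  by_contra hcon
  push Not at hcon
  have hfix : ∀ σ : GQ, σ ((ν : Qbar) ^ e) = (ν : Qbar) ^ e := by
    intro σ
    rw [hν, map_natCast]
  have hL0 : (ν : Qbar) ∈ L0 A := by
    rw [mem_L0_iff]
    intro σ hσ
    exact (B.kum_eq_zero_iff e (hfix σ)).1 (hcon σ hσ)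
  obtain ⟨k, hk⟩ := val_L0 hq hA hL0 ν.ne_zero
  have h1 : A.valuation (q : Qbar) ^ (k * (e : ℤ)) = A.valuation (q : Qbar) ^ (1 : ℤ) := by
    rw [zpow_mul, ← hk, zpow_natCast, ← map_pow, hν, zpow_one]
  have h2 : k * (e : ℤ) = 1 := val_zpow_inj hq hA h1
  have h3 : (e : ℤ) ∣ 1 := Dvd.intro_left k h2
  have h4 : e ∣ 1 := by exact_mod_cast h3
  exact he.one_lt.ne' (Nat.dvd_one.mp h4)

/-- (D-KumLoc) `ξ` is unramified at `q ≠ e`. [`S55.Z.inertia_fixes_rootsOfUnity` / `ES.D`: order `e` or `4 = e^2`.] -/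
theorem kum_xi_inertia_eq_zero (hq : q.Prime) (hA : A.LiesOverPrime q) (hqe : q ≠ e) (ξ : Qbarˣ)
    (hξ : IsPrimitiveRoot (ξ : Qbar) (xiOrd e)) : ∀ σ ∈ A.inertiaSubgroupIn ℚ, kum e ξ σ = 0 := by
  intro σ hσ
  rw [B.kum_eq_zero_iff e (KumLoc_xi_pow_fixed hξ σ)]
  exact inertia_fixes_unitRoot hq hA hqe (KumLoc_xi_mem_unitRoots hξ) σ hσ

/-- (D-KumLoc) `ξ` is ramified at `e`. [`dvd_of_xi_pow_fixed` with `j = 1`; note `ξ ^ e = ± 1` is rational.] -/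
theorem exists_inertia_kum_xi_ne_zero (hA : A.LiesOverPrime e) (ξ : Qbarˣ)
    (hξ : IsPrimitiveRoot (ξ : Qbar) (xiOrd e)) : ∃ τ ∈ A.inertiaSubgroupIn ℚ, kum e ξ τ ≠ 0 := by
  have he : e.Prime := Fact.out
  by_contra hcon
  push Not at hcon
  have h1 : e ∣ 1 := by
    refine dvd_of_xi_pow_fixed he hA hξ 1 fun σ hσ => ?_
    rw [pow_one]
    exact (B.kum_eq_zero_iff e (KumLoc_xi_pow_fixed hξ σ)).1 (hcon σ hσ)
  exact he.one_lt.ne' (Nat.dvd_one.mp h1)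

end Fermat.Agent.S15.D
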