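import Fermat.Agent.S15.D.Defs

/-!
# S15 / D : valuations on the inertia field  (TASK S15/D-Val)

`v = A.valuation`, `A` over the prime `q`, `L0 A = Qbar^{I_A}` (S36/Base/Inertia).
All statements are reformulations of `S36.Base.exists_zpow_mul_mem`, `S05.val_sigma`, `S05.val_int`.
-/

set_option autoImplicit false

namespace Fermat.Agent.S15.D

open Fermat.Agent.S55.Places Fermat.Agent.S36.Base

variable {q : ℕ} {A : ValuationSubring Qbar}

/-- (`x ≠ 0` is needed: `0 ∈ A` and `0⁻¹ = 0 ∈ A`.) -/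
theorem val_eq_one_iff {x : Qbar} (hx : x ≠ 0) : A.valuation x = 1 ↔ x ∈ A ∧ x⁻¹ ∈ A := by
  rw [← A.valuation_le_one_iff, ← A.valuation_le_one_iff, map_inv₀]
  have h0 : A.valuation x ≠ 0 := (map_ne_zero _).mpr hx
  constructor
  · intro h
    rw [h]
    simp
  · rintro ⟨h1, h2⟩
    exact le_antisymm h1 ((inv_le_one₀ (zero_lt_iff.mpr h0)).mp h2)

theorem val_prime_lt_one (hA : A.LiesOverPrime q) : A.valuation (q : Qbar) < 1 := by
  have : (q : Qbar) ∈ A.nonunits := hA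
  rwa [ValuationSubring.mem_nonunits_iff] at this

theorem val_prime_ne_zero (hq : q.Prime) : A.valuation (q : Qbar) ≠ 0 := by
  rw [Ne, map_eq_zero]
  exact_mod_cast hq.ne_zero

/-- the value group is torsion free "at `q`". -/
theorem val_zpow_inj (hq : q.Prime) (hA : A.LiesOverPrime q) {a b : ℤ}
    (h : A.valuation (q : Qbar) ^ a = A.valuation (q : Qbar) ^ b) : a = b := by
  have h0 := val_prime_ne_zero (A := A) hq
  have h1 := val_prime_lt_one hA
  exact zpow_right_injective₀ (zero_lt_iff.mpr h0) h1.ne h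

/-- `x ^ n` of valuation one (`n ≠ 0`) implies `x` of valuation one. -/
theorem val_eq_one_of_pow {x : Qbar} {n : ℕ} (hn : n ≠ 0) (h : A.valuation (x ^ n) = 1) :
    A.valuation x = 1 := by
  rw [map_pow] at h
  exact (pow_eq_one_iff.mp h).resolve_right hn

/-- **the inertia field is unramified** (valuation form of `exists_zpow_mul_mem`). -/
theorem val_L0 (hq : q.Prime) (hA : A.LiesOverPrime q) {x : Qbar} (hx : x ∈ L0 A) (h0 : x ≠ 0) :
    ∃ k : ℤ, A.valuation x = A.valuation (q : Qbar) ^ k := by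
  obtain ⟨k, hk⟩ := exists_zpow_mul_mem hq hA hx h0
  have hq0 : (q : Qbar) ≠ 0 := by exact_mod_cast hq.ne_zero
  rw [← val_eq_one_iff (mul_ne_zero h0 (zpow_ne_zero _ hq0)), map_mul, map_zpow₀] at hk
  refine ⟨-k, ?_⟩
  rw [zpow_neg]
  exact eq_inv_of_mul_eq_one_left hk

/-- a prime different from `q` is a unit. -/
theorem val_prime_eq_one (hq : q.Prime) (hA : A.LiesOverPrime q) {l : ℕ} (hl : l.Prime) (hlq : l ≠ q) :
    A.valuation (l : Qbar) = 1 := by
  have h := Fermat.Agent.S05.val_int A hq hA (l : ℤ)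
  have h1 : ¬ ((q : ℤ) ∣ (l : ℤ)) := by
    intro hd
    have := (Nat.prime_dvd_prime_iff_eq hq hl).mp (Int.natCast_dvd_natCast.mp hd)
    exact hlq this.symm
  have h2 : ¬ A.valuation (((l : ℤ) : Qbar)) < 1 := fun hh => h1 (h.2.mp hh)
  have h3 := le_antisymm h.1 (not_lt.mp h2)
  simpa using h3

theorem Val_val_int (hq : q.Prime) (hA : A.LiesOverPrime q) {n : ℤ} (hn : n ≠ 0) :
    A.valuation (n : Qbar) = A.valuation (q : Qbar) ^ (padicValInt q n) := by
  have : Fact q.Prime := ⟨hq⟩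
  obtain ⟨k, hk⟩ : ∃ k, k = padicValInt q n := ⟨_, rfl⟩
  rw [← hk]
  obtain ⟨m, hm⟩ : (q : ℤ) ^ k ∣ n := hk ▸ padicValInt_dvd n
  have hm' : ¬ (q : ℤ) ∣ m := by
    intro hd
    obtain ⟨m', rfl⟩ := hd
    have h1 : (q : ℤ) ^ (k + 1) ∣ n := ⟨m', by rw [hm]; ring⟩
    have := (padicValInt_dvd_iff (p := q) (k + 1) n).mp h1
    rcases this with h | h
    · exact hn h
    · omega
  have h := Fermat.Agent.S05.val_int A hq hA m
  have h2 : ¬ A.valuation ((m : Qbar)) < 1 := fun hh => hm' (h.2.mp hh)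
  have h3 := le_antisymm h.1 (not_lt.mp h2)
  rw [hm]
  push_cast
  rw [map_mul, map_pow, h3, mul_one]

/-- valuation of a rational number. -/
theorem val_rat (hq : q.Prime) (hA : A.LiesOverPrime q) {b : ℚ} (hb : b ≠ 0) :
    A.valuation (algebraMap ℚ Qbar b) = A.valuation (q : Qbar) ^ (padicValRat q b) := by
  have h0 := val_prime_ne_zero (A := A) hq
  have hnum : b.num ≠ 0 := Rat.num_ne_zero.mpr hb
  have hden : (b.den : ℤ) ≠ 0 := by exact_mod_cast b.den_ne_zero
  have hb' : algebraMap ℚ Qbar b = (b.num : Qbar) / ((b.den : ℤ) : Qbar) := by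
    conv_lhs => rw [← Rat.num_div_den b]
    rw [map_div₀]
    simp
  rw [hb', map_div₀, Val_val_int hq hA hnum, Val_val_int hq hA hden, padicValRat_def,
    zpow_sub₀ h0, zpow_natCast, zpow_natCast]
  rfl

theorem rat_mem_L0 (b : ℚ) : algebraMap ℚ Qbar b ∈ L0 A := (L0 A).algebraMap_mem b

/-- (`z ≠ 0` is needed: `0 ∈ unitRoots e A`.) -/
theorem val_unitRoots {e : ℕ} (he : e ≠ 0) {z : Qbar} (hz : z ∈ unitRoots e A) (hz0 : z ≠ 0) :
    A.valuation z = 1 :=
  val_eq_one_of_pow he ((val_eq_one_iff (pow_ne_zero _ hz0)).mpr ⟨hz.1, hz.2.1⟩)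

theorem root_of_unity_mem_unitRoots {e : ℕ} {ζ : Qbar} (hζ : ζ ^ e = 1) : ζ ∈ unitRoots e A := by
  refine ⟨?_, ?_, ?_⟩
  · rw [hζ]; exact A.one_mem
  · rw [hζ, inv_one]; exact A.one_mem
  · intro σ _
    rw [hζ, map_one]

end Fermat.Agent.S15.D
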